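/-
Program H (S18), chapter RED/LVL, leaf (L4) (helper17): degrees of the level tower and the
numerics of the auxiliary level.

* `psi_lcm_prime_sq_lt`, `psi_auxLevel_lt` : `ψ(M) < 2 · (M / N) · ψ(N)` for `M = lcm N p²`,
  resp. `M = auxLevel ℓ N` (the numerics `6 < 8`, `2 < 4`, `12 < 18`, `3 < 6`).
* `psi_mul_relfinrank` : `ψ(N) · [Fbar_M : Fbar_N] = ψ(M)` for `N ∣ M`.
* `relfinrank_auxLevel_lt` : `[Fbar_M : Fbar_N] < 2 · (M / N)` for `M = auxLevel ℓ N`.
* `isAlgebraic_of_mem` : `halg` of `LevelStepAbs2.levelStep_of_rootDescent`.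
* `algebraIncl`, `finrank_algebraIncl`, `finiteDimensional_algebraIncl`, `finrank_auxLevel_lt` :
  the same in the literal shape consumed by `ValueGroupDescent17.exists_algebraMap_eq_of_pow_eq`
  (algebra structure `Fbar_N → Fbar_M` given by the inclusion).
-/
import Mathlib
import Fermat.Agent.RED.Interface4
import Fermat.Agent.RED.BASE.TGen19
import Fermat.Agent.X0.GNPsi

set_option autoImplicit false

noncomputable section

namespace Fermat.Agent.RED.LVL.LevelDegree17

open ModularCurve IntermediateField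
open Fermat.Agent.RED.Interface4 Fermat.Agent.X0.GNPsi
open Fermat.Agent.RED.BASE.QExpMem19 Fermat.Agent.RED.BASE.TGen19 Fermat.Agent.RED.BASE.Interface12

/-! ### Numerics -/

/-- `lcm (p^a * N') (p^2)` for `p ∤ N'`. -/
theorem lcm_pow_mul {p : ℕ} (hp : p.Prime) {N' : ℕ} (hN' : ¬ p ∣ N') (a : ℕ) :
    Nat.lcm (p ^ a * N') (p ^ 2) = p ^ (max a 2) * N' := by
  have hcop : ∀ k, Nat.Coprime (p ^ k) N' := fun k =>
    Nat.Coprime.pow_left k ((Nat.Prime.coprime_iff_not_dvd hp).mpr hN')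
  apply Nat.dvd_antisymm
  · apply Nat.lcm_dvd
    · exact Nat.mul_dvd_mul_right (pow_dvd_pow p (le_max_left a 2)) N'
    · exact Dvd.dvd.mul_right (pow_dvd_pow p (le_max_right a 2)) N'
  · apply (hcop _).mul_dvd_of_dvd_of_dvd
    · rcases le_total a 2 with h | h
      · rw [max_eq_right h]
        exact Nat.dvd_lcm_right _ _
      · rw [max_eq_left h]
        exact (Dvd.intro _ rfl).trans (Nat.dvd_lcm_left _ _)
    · exact (Dvd.intro_left _ rfl).trans (Nat.dvd_lcm_left _ _)

/-- **Numerics**: `ψ(lcm N p²) < 2 · (lcm N p² / N) · ψ(N)`. -/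
theorem psi_lcm_prime_sq_lt {p : ℕ} (hp : p.Prime) {N : ℕ} (hN : N ≠ 0) :
    dedekindPsi (Nat.lcm N (p ^ 2)) < 2 * (Nat.lcm N (p ^ 2) / N) * dedekindPsi N := by
  obtain ⟨a, N', hN'p, rfl⟩ := Nat.exists_eq_pow_mul_and_not_dvd hN p hp.ne_one
  have hN'0 : N' ≠ 0 := by rintro rfl; simp at hN
  have hcop : ∀ k, Nat.Coprime (p ^ k) N' := fun k =>
    Nat.Coprime.pow_left k ((Nat.Prime.coprime_iff_not_dvd hp).mpr hN'p)
  have hψ : 0 < dedekindPsi N' := gnp_dedekindPsi_pos hN'0
  have hp2 : 2 ≤ p := hp.two_le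
  have hppos : 0 < p := hp.pos
  rw [lcm_pow_mul hp hN'p a, gnp_dedekindPsi_mul (hcop _), gnp_dedekindPsi_mul (hcop _)]
  have hdiv : p ^ max a 2 * N' / (p ^ a * N') = p ^ (max a 2 - a) := by
    have h1 : p ^ max a 2 = p ^ (max a 2 - a) * p ^ a := by
      rw [← pow_add, Nat.sub_add_cancel (le_max_left a 2)]
    rw [h1, mul_assoc]
    exact Nat.mul_div_cancel _ (Nat.mul_pos (pow_pos hppos a) (Nat.pos_of_ne_zero hN'0))
  rw [hdiv]
  have key : dedekindPsi (p ^ max a 2) < 2 * p ^ (max a 2 - a) * dedekindPsi (p ^ a) := by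
    rcases Nat.lt_or_ge a 2 with h | h
    · rw [max_eq_right h.le]
      interval_cases a
      · simp only [pow_zero, dedekindPsi_one, Nat.sub_zero, mul_one]
        rw [gnp_dedekindPsi_prime_pow hp 1]
        have h2 : 2 * p ≤ p * p := Nat.mul_le_mul_right p hp2
        have e1 : p ^ (1 + 1) = p * p := by ring
        rw [e1, pow_one]
        omega
      · rw [gnp_dedekindPsi_prime_pow hp 1, gnp_dedekindPsi_prime_pow hp 0]
        simp only [zero_add, pow_one, pow_zero, Nat.add_one_sub_one]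
        have e1 : p ^ (1 + 1) = p * p := by ring
        have e2 : 2 * p * (p + 1) = 2 * (p * p) + 2 * p := by ring
        rw [e1, e2]
        have : 0 < p * p := Nat.mul_pos hppos hppos
        omega
    · rw [max_eq_left h, Nat.sub_self, pow_zero, mul_one]
      have : 0 < dedekindPsi (p ^ a) := gnp_dedekindPsi_pos (pow_pos hppos a).ne'
      omega
  calc dedekindPsi (p ^ max a 2) * dedekindPsi N'
      < (2 * p ^ (max a 2 - a) * dedekindPsi (p ^ a)) * dedekindPsi N' :=
        Nat.mul_lt_mul_of_pos_right key hψ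
    _ = 2 * p ^ (max a 2 - a) * (dedekindPsi (p ^ a) * dedekindPsi N') := by ring

/-- **Numerics at the auxiliary level.** -/
theorem psi_auxLevel_lt (ℓ : ℕ) {N : ℕ} (hN : N ≠ 0) :
    dedekindPsi (auxLevel ℓ N) < 2 * (auxLevel ℓ N / N) * dedekindPsi N := by
  unfold auxLevel
  split_ifs
  · exact psi_lcm_prime_sq_lt (p := 3) Nat.prime_three hN
  · exact psi_lcm_prime_sq_lt (p := 2) Nat.prime_two hN

/-! ### Degrees -/

/-- `ψ(N) · [Fbar_M : Fbar_N] = ψ(M)` for `N ∣ M`. -/
theorem psi_mul_relfinrank {N M : ℕ} [NeZero N] [NeZero M] (h : N ∣ M) :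
    dedekindPsi N * relfinrank (Fbar N) (Fbar M) = dedekindPsi M := by
  rw [← relfinrank_K0 N, ← relfinrank_K0 M]
  exact relfinrank_mul_relfinrank (K0_le N) (fbar_mono h)

theorem relfinrank_pos {N M : ℕ} [NeZero N] [NeZero M] (h : N ∣ M) :
    0 < relfinrank (Fbar N) (Fbar M) := by
  have h1 := psi_mul_relfinrank h
  have h2 : 0 < dedekindPsi M := gnp_dedekindPsi_pos (NeZero.ne M)
  rcases Nat.eq_zero_or_pos (relfinrank (Fbar N) (Fbar M)) with h0 | h0
  · rw [h0, mul_zero] at h1; omega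
  · exact h0

section AlgebraForm

variable {N M : ℕ} [NeZero N] [NeZero M]

theorem finrank_extendScalars (h : N ∣ M) :
    Module.finrank (Fbar N) (extendScalars (fbar_mono h)) = relfinrank (Fbar N) (Fbar M) :=
  (relfinrank_eq_finrank_of_le (fbar_mono h)).symm

theorem finiteDimensional_extendScalars (h : N ∣ M) :
    FiniteDimensional (Fbar N) (extendScalars (fbar_mono h)) :=
  FiniteDimensional.of_finrank_pos (by rw [finrank_extendScalars h]; exact relfinrank_pos h)

/-- `halg` of `LevelStepAbs2.levelStep_of_rootDescent`. -/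
theorem isAlgebraic_of_mem (h : N ∣ M) (x : Fbar M) :
    IsAlgebraic (Fbar N) (x : LaurentSeries Qbar) := by
  have := finiteDimensional_extendScalars h
  have hx : (x : LaurentSeries Qbar) ∈ extendScalars (fbar_mono h) := x.2
  have hfd : Algebra.IsAlgebraic (Fbar N) (extendScalars (fbar_mono h)) :=
    Algebra.IsAlgebraic.of_finite _ _
  have h1 : IsAlgebraic (Fbar N) (⟨(x : LaurentSeries Qbar), hx⟩ : extendScalars (fbar_mono h)) :=
    hfd.isAlgebraic _
  exact (isAlgebraic_iff (S := extendScalars (fbar_mono h))).mp h1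

/-- The algebra structure `Fbar_N → Fbar_M` given by the inclusion. -/
abbrev algebraIncl (h : N ∣ M) : Algebra (Fbar N) (Fbar M) :=
  (inclusion (fbar_mono h)).toRingHom.toAlgebra

theorem finrank_algebraIncl (h : N ∣ M) :
    @Module.finrank (Fbar N) (Fbar M) _ _ (algebraIncl h).toModule =
      relfinrank (Fbar N) (Fbar M) :=
  finrank_extendScalars h

theorem finiteDimensional_algebraIncl (h : N ∣ M) :
    @FiniteDimensional (Fbar N) (Fbar M) _ _ (algebraIncl h).toModule :=
  finiteDimensional_extendScalars h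

end AlgebraForm


/-! ### The auxiliary level -/

theorem neZero_auxLevel (ℓ N : ℕ) [NeZero N] : NeZero (auxLevel ℓ N) :=
  ⟨(auxLevel_pos (Nat.pos_of_ne_zero (NeZero.ne N))).ne'⟩

/-- `[Fbar_M : Fbar_N] < 2 · (M / N)` for `M = auxLevel ℓ N`. -/
theorem relfinrank_auxLevel_lt (ℓ N : ℕ) [NeZero N] :
    relfinrank (Fbar N) (Fbar (auxLevel ℓ N)) < 2 * (auxLevel ℓ N / N) := by
  have := neZero_auxLevel ℓ N
  have h1 := psi_mul_relfinrank (dvd_auxLevel ℓ N)
  have h2 := psi_auxLevel_lt ℓ (NeZero.ne N)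
  have h3 : 0 < dedekindPsi N := gnp_dedekindPsi_pos (NeZero.ne N)
  rw [← h1] at h2
  have h4 : dedekindPsi N * relfinrank (Fbar N) (Fbar (auxLevel ℓ N)) <
      dedekindPsi N * (2 * (auxLevel ℓ N / N)) := by
    calc _ < 2 * (auxLevel ℓ N / N) * dedekindPsi N := h2
      _ = _ := by ring
  exact Nat.lt_of_mul_lt_mul_left h4

/-- The same for the algebra structure given by the inclusion: the literal `hdeg` of
`ValueGroupDescent17.exists_algebraMap_eq_of_pow_eq`. -/
theorem finrank_auxLevel_lt (ℓ N : ℕ) [NeZero N] :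
    haveI := neZero_auxLevel ℓ N
    @Module.finrank (Fbar N) (Fbar (auxLevel ℓ N)) _ _ (algebraIncl (dvd_auxLevel ℓ N)).toModule <
      2 * (auxLevel ℓ N / N) := by
  have := neZero_auxLevel ℓ N
  rw [finrank_algebraIncl (dvd_auxLevel ℓ N)]
  exact relfinrank_auxLevel_lt ℓ N

end Fermat.Agent.RED.LVL.LevelDegree17
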