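/-
Program H (S18) / chapter RED/LVL / helper19.

`FrickeExp19` (L3): the cusp expansion at `γ = S` (the cusp `0`, "Fricke side") at level `M`:

* `T_S_jdF`        : `(cuspData M).T S (j_d) = qExpand (M/d) jqK` for `d ∣ M`
                     (`j(d · S(M z)) = j((M/d) z)`);
* `T_S_const`      : `T_S` is the identity on constants;
* `T_S_mem_range`  : `T_S (Fbar N) ⊆ range (qExpand (M/N))` for `N ∣ M`;
* `T_S_jM`, `order_T_S_jM` : `T_S (j_M) = jqK` has order `-1`;
* `T_S_jF`, `order_T_S_jF` : `T_S (j) = qExpand M jqK` has order `-M`.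
-/
import Mathlib
import Fermat.Agent.RED.BASE.TGen19
import Fermat.Agent.X0.CuspGood
import Fermat.Agent.X0.CuspPlaces
import Fermat.Agent.X0.FracR

set_option autoImplicit false
set_option linter.unusedSectionVars false

open ModularCurve UpperHalfPlane IntermediateField
open scoped MatrixGroups

noncomputable section

namespace Fermat.Agent.RED.LVL.FrickeExp19

open Fermat.Agent.X0 Fermat.Agent.X0.Analytic
open Fermat.Agent.RED.BASE.Interface12

/-- `d · S((d k) z) = S(k z)`. -/
theorem scaleH_S_smul_scaleH (d k : ℕ) [NeZero d] [NeZero k] [NeZero (d * k)] (z : ℍ) :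
    scaleH d (ModularGroup.S • scaleH (d * k) z) = ModularGroup.S • scaleH k z := by
  apply UpperHalfPlane.ext
  rw [coe_scaleH, UpperHalfPlane.modular_S_smul, UpperHalfPlane.modular_S_smul]
  simp only [coe_scaleH]
  have hd : (d : ℂ) ≠ 0 := by exact_mod_cast NeZero.ne d
  have hk : (k : ℂ) ≠ 0 := by exact_mod_cast NeZero.ne k
  have hz : (z : ℂ) ≠ 0 := z.ne_zero
  push_cast
  field_simp

/-- `toC (qExpand k jqK)` is the `q`-expansion of `j(k z)`. -/
theorem hasQExp_qExpand_jqK (k : ℕ) [NeZero k] :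
    HasQExp (toC (qExpand Kbar k jqK)) (jdFun k) := by
  have h : qExpand Kbar k jqK = coeffEmb Kbar (qExpand ℚ k jq) := by
    unfold coeffEmb jqK
    rw [ModularCurve.coeffMap_qExpand]
    rfl
  rw [h]
  exact hasQExp_jd k

/-- **The expansion of `j_d` at the cusp `0`**: `T_S (j_d) = j(q^{M/d})`. -/
theorem T_S_jdF (M d k : ℕ) [NeZero M] [NeZero d] [NeZero k] (hM : M = d * k) :
    (cuspData M).T ModularGroup.S (jdF M d ⟨k, hM⟩) = qExpand Kbar k jqK := by
  have hq : HasQExp (toC ((jdF M d ⟨k, hM⟩ : FF M) : LaurentSeries Kbar)) (jdFun d) :=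
    hasQExp_jd d
  have hT : IntgQN M (compSL (jdFun d) ModularGroup.S) (toC (qExpand Kbar k jqK)) := by
    unfold IntgQN
    have hfun : (fun z => compSL (jdFun d) ModularGroup.S (scaleH M z)) = jdFun k := by
      funext z
      show jFun (scaleH d (ModularGroup.S • scaleH M z)) = jFun (scaleH k z)
      subst hM
      rw [scaleH_S_smul_scaleH, jFun_smul]
    rw [hfun]
    exact hasQExp_qExpand_jqK k
  exact Fermat.Agent.RED.BASE.TGen19.T_eq_of_mem (jdF M d ⟨k, hM⟩).2 hq ModularGroup.S _ hT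

/-- `T_S` on constants. -/
theorem T_S_const (M : ℕ) [NeZero M] (c : Kbar) :
    (cuspData M).T ModularGroup.S (algebraMap Kbar (FF M) c) = HahnSeries.C c :=
  CuspGood.map_const (cuspData M) ModularGroup.S c

/-- `T_S (j_M) = jqK`. -/
theorem T_S_jM (M : ℕ) [NeZero M] :
    (cuspData M).T ModularGroup.S (jdF M M dvd_rfl) = jqK := by
  have h := T_S_jdF M M 1 (mul_one M).symm
  rw [qExpand_one_apply] at h
  exact h

theorem order_T_S_jM (M : ℕ) [NeZero M] :
    ((cuspData M).T ModularGroup.S (jdF M M dvd_rfl)).order = -1 := by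
  rw [T_S_jM]
  have := order_qExpand_jqK 1
  rw [qExpand_one_apply] at this
  simpa using this

/-- `T_S (j) = j(q^M)`. -/
theorem T_S_jF (M : ℕ) [NeZero M] :
    (cuspData M).T ModularGroup.S (jF M) = qExpand Kbar M jqK :=
  CuspGood.map_jF (cuspData M) ModularGroup.S

theorem order_T_S_jF (M : ℕ) [NeZero M] :
    ((cuspData M).T ModularGroup.S (jF M)).order = -(M : ℤ) := by
  rw [T_S_jF]
  exact order_qExpand_jqK M

/-- **`T_S (Fbar N) ⊆ range (qExpand (M/N))`** for `M = N e`. -/
theorem T_S_mem_range (N M e : ℕ) [NeZero N] [NeZero M] [NeZero e] (hM : M = N * e)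
    (f : FF N) :
    (cuspData M).T ModularGroup.S (inclusion (fbar_mono ⟨e, hM⟩) f) ∈
      Set.range (qExpand Kbar e) := by
  set τ : FF N →+* LaurentSeries Kbar :=
    ((cuspData M).T ModularGroup.S).comp (inclusion (fbar_mono ⟨e, hM⟩)).toRingHom with hτ
  show τ f ∈ Set.range (qExpand Kbar e)
  have hR : ∀ u : FF N, u ∈ Rsub N → τ u ∈ (qExpand Kbar e).fieldRange := by
    intro u hu
    unfold Rsub at hu
    induction hu using Algebra.adjoin_induction with
    | mem y hy =>
        obtain ⟨d, hd0, hd, rfl⟩ := hy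
        obtain ⟨k, hk⟩ := hd
        have hk0 : NeZero k := ⟨fun h0 => NeZero.ne N (by rw [hk, h0, mul_zero])⟩
        have hke : NeZero (k * e) := ⟨mul_ne_zero (NeZero.ne k) (NeZero.ne e)⟩
        have hMd : M = d * (k * e) := by rw [hM, hk, mul_assoc]
        have h1 : τ (jdF N d ⟨k, hk⟩) = (cuspData M).T ModularGroup.S (jdF M d ⟨k * e, hMd⟩) := rfl
        rw [h1, T_S_jdF M d (k * e) hMd, RingHom.mem_fieldRange]
        refine ⟨qExpand Kbar k jqK, ?_⟩
        rw [qExpand_qExpand]
        exact qExpand_congr (mul_comm e k) jqK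
    | algebraMap c =>
        have h1 : τ (algebraMap Kbar (FF N) c) =
            (cuspData M).T ModularGroup.S (algebraMap Kbar (FF M) c) := rfl
        rw [h1, T_S_const, RingHom.mem_fieldRange]
        exact ⟨HahnSeries.C c, qExpand_C e c⟩
    | add x y _ _ hx hy => rw [map_add]; exact add_mem hx hy
    | mul x y _ _ hx hy => rw [map_mul]; exact mul_mem hx hy
  obtain ⟨r, s, -, rfl⟩ := FracR.exists_div_ne_zero N f
  rw [map_div₀]
  have := div_mem (hR _ r.2) (hR _ s.2)
  rwa [RingHom.mem_fieldRange] at this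

end Fermat.Agent.RED.LVL.FrickeExp19
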