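/-
Program H (S18), chapter LVL, leaf (L1), helper2.

Restriction of places along a `K`-algebra embedding `φ : F →ₐ[K] F₂` of fields:
if some `v.ord (φ f) ≠ 0` (automatic when `F₂` is integral over `φ F`), there are a place `w` of
`F` and `e ≥ 1` with `v.ord (φ f) = e * w.ord f`.  Thin wrapper around the prelude
(`AlgebraicCurve.Place.restrict`, `ord_restrict`) for the integral case, and a direct
construction in general.
-/
import Mathlib
import Fermat.Prelude.Def_AlgebraicCurve_DivisorPushPull

set_option autoImplicit false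

noncomputable section

namespace Fermat.Agent.RED.LVL.PlaceRestrict2

open AlgebraicCurve

section Integral

variable {K F F₂ : Type*} [Field K] [Field F] [Field F₂] [Algebra K F] [Algebra K F₂]

/-- **(L1), integral case**: if `F₂` is integral over `φ F`, every place `v` of `F₂` restricts to a
place `w` of `F` with `ord_v ∘ φ = e · ord_w`, `e ≥ 1`. -/
theorem exists_restrict_of_integral (φ : F →ₐ[K] F₂)
    (hint : ∀ x : F₂, ∃ p : Polynomial F, p.Monic ∧ Polynomial.eval₂ (φ : F →+* F₂) x p = 0)
    (v : Place K F₂) :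
    ∃ (w : Place K F) (e : ℕ), 0 < e ∧ (∀ f : F, v.ord (φ f) = (e : ℤ) * w.ord f) ∧
      ∀ f : F, f ∈ w.toValuationSubring ↔ φ f ∈ v.toValuationSubring := by
  let _ : Algebra F F₂ := (φ : F →+* F₂).toAlgebra
  have : IsScalarTower K F F₂ := IsScalarTower.of_algebraMap_eq fun a => (φ.commutes a).symm
  have : Algebra.IsIntegral F F₂ := ⟨fun x => hint x⟩
  refine ⟨v.restrict F, v.ramificationIndex F, v.ramificationIndex_pos (F := F),
    fun f => v.ord_restrict (F := F) f, fun f => Iff.rfl⟩

/-- the conclusion in the literal shape `f ≠ 0 → …`. -/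
theorem exists_restrict_of_integral' (φ : F →ₐ[K] F₂)
    (hint : ∀ x : F₂, ∃ p : Polynomial F, p.Monic ∧ Polynomial.eval₂ (φ : F →+* F₂) x p = 0)
    (v : Place K F₂) :
    ∃ (w : Place K F) (e : ℕ), 0 < e ∧ ∀ f : F, f ≠ 0 → v.ord (φ f) = (e : ℤ) * w.ord f := by
  obtain ⟨w, e, he, h, -⟩ := exists_restrict_of_integral φ hint v
  exact ⟨w, e, he, fun f _ => h f⟩

/-- nontriviality of the restricted valuation in the integral case. -/
theorem exists_ord_ne_zero (φ : F →ₐ[K] F₂)
    (hint : ∀ x : F₂, ∃ p : Polynomial F, p.Monic ∧ Polynomial.eval₂ (φ : F →+* F₂) x p = 0)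
    (v : Place K F₂) : ∃ f : F, f ≠ 0 ∧ v.ord (φ f) ≠ 0 := by
  obtain ⟨w, e, he, h, -⟩ := exists_restrict_of_integral φ hint v
  obtain ⟨π, hπ⟩ := IsDiscreteValuationRing.exists_irreducible w.toValuationSubring
  refine ⟨(π : F), ?_, ?_⟩
  · simpa [ne_eq, ZeroMemClass.coe_eq_zero] using hπ.ne_zero
  · rw [h, w.ord_coe_irreducible hπ]
    simpa using he.ne'

/-- algebraic (= integral, over a field) form of the hypothesis. -/
theorem exists_restrict_of_isAlgebraic (φ : F →ₐ[K] F₂)
    (halg : ∀ x : F₂, ∃ p : Polynomial F, p ≠ 0 ∧ Polynomial.eval₂ (φ : F →+* F₂) x p = 0)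
    (v : Place K F₂) :
    ∃ (w : Place K F) (e : ℕ), 0 < e ∧ (∀ f : F, v.ord (φ f) = (e : ℤ) * w.ord f) ∧
      ∀ f : F, f ∈ w.toValuationSubring ↔ φ f ∈ v.toValuationSubring := by
  refine exists_restrict_of_integral φ (fun x => ?_) v
  obtain ⟨p, hp0, hp⟩ := halg x
  refine ⟨p * Polynomial.C p.leadingCoeff⁻¹, Polynomial.monic_mul_leadingCoeff_inv hp0, ?_⟩
  rw [Polynomial.eval₂_mul, hp, zero_mul]

end Integral

section IntermediateField

variable {K E : Type*} [Field K] [Field E] [Algebra K E]

/-- **(L1) for intermediate fields** `F ≤ F'` of an ambient field with `F'` algebraic over `F`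
(the shape used for `Fbar N ≤ Fbar M`). -/
theorem exists_restrict_le {F F' : IntermediateField K E} (hle : F ≤ F')
    (halg : ∀ x : F', IsAlgebraic F (x : E)) (v : Place K F') :
    ∃ (w : Place K F) (e : ℕ), 0 < e ∧
      (∀ f : F, v.ord (IntermediateField.inclusion hle f) = (e : ℤ) * w.ord f) ∧
      ∀ f : F, f ∈ w.toValuationSubring ↔
        IntermediateField.inclusion hle f ∈ v.toValuationSubring := by
  refine exists_restrict_of_isAlgebraic (IntermediateField.inclusion hle) (fun x => ?_) v
  obtain ⟨p, hp0, hp⟩ := halg x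
  refine ⟨p, hp0, ?_⟩
  apply Subtype.ext
  rw [Polynomial.aeval_def] at hp
  have h1 : ((Polynomial.eval₂ ((IntermediateField.inclusion hle : F →ₐ[K] F') : F →+* F') x p : F') : E)
      = Polynomial.eval₂ (algebraMap F E) (x : E) p := by
    rw [← IntermediateField.coe_val F', ← AlgHom.coe_toRingHom, Polynomial.hom_eval₂]
    rfl
  rw [h1, hp]
  rfl

end IntermediateField

end Fermat.Agent.RED.LVL.PlaceRestrict2

end
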