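/-
Program H (S18), chapter LVL, helper2: the bookkeeping half of `LevelStep`.

`LevelStep ℓ N M A := CLBar ℓ M A → CLBar ℓ N A` follows from
* `Fbar N ≤ Fbar M`, `Fbar M` algebraic over `Fbar N`,
* `RootDescent N M`: an `m`-th root in `Fbar M` of an element `h` of `Fbar N` whose order at every
  place of `Fbar N` is divisible by `m` lies in `Fbar N`.
-/
import Mathlib
import Fermat.Agent.RED.Interface4
import Fermat.Agent.RED.LVL.PlaceRestrict2

set_option autoImplicit false

noncomputable section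

namespace Fermat.Agent.RED.LVL.LevelStepAbs2

open HahnSeries AlgebraicCurve ModularCurve Fermat.Agent.RED.Interface4

/-- **Root descent** from level `M` to level `N`. -/
def RootDescent (N M : ℕ) (hle : Fbar N ≤ Fbar M) : Prop :=
  ∀ (m : ℕ), 0 < m → ∀ (h : Fbar N) (s : Fbar M),
    s ^ m = IntermediateField.inclusion hle h →
    (∀ w : Place Qbar (Fbar N), (m : ℤ) ∣ w.ord h) →
    ∃ f : Fbar N, IntermediateField.inclusion hle f = s

theorem coeffMap_subtype_injective (A : ValuationSubring Qbar) :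
    Function.Injective (coeffMap A.subtype) := by
  intro x y hxy
  ext n
  have := congrArg (fun z => z.coeff n) hxy
  simp only [coeffMap_coeff] at this
  exact this

theorem levelStep_of_rootDescent {ℓ N M : ℕ} (A : ValuationSubring Qbar)
    (hle : Fbar N ≤ Fbar M)
    (halg : ∀ x : Fbar M, IsAlgebraic (Fbar N) (x : LaurentSeries Qbar))
    (hrd : RootDescent N M hle) : LevelStep ℓ N M A := by
  intro hCL P Q hP hQ hred hne m hm hdiv
  have hm0 : 0 < m := Nat.pos_of_ne_zero (fun h => hm (h ▸ dvd_zero ℓ))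
  -- `P, Q ≠ 0`
  have hQne : coeffMap (IsLocalRing.residue A) Q ≠ 0 := hred ▸ hne
  have hP0 : (⟨coeffMap A.subtype P, hP⟩ : Fbar N) ≠ 0 := by
    intro h0
    have h1 : coeffMap A.subtype P = 0 := congrArg Subtype.val h0
    have h2 : P = 0 := coeffMap_subtype_injective A (by rw [h1, map_zero])
    exact hne (by rw [h2, map_zero])
  have hQ0 : (⟨coeffMap A.subtype Q, hQ⟩ : Fbar N) ≠ 0 := by
    intro h0
    have h1 : coeffMap A.subtype Q = 0 := congrArg Subtype.val h0
    have h2 : Q = 0 := coeffMap_subtype_injective A (by rw [h1, map_zero])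
    exact hQne (by rw [h2, map_zero])
  -- transfer of the divisibility hypothesis to level `M`
  have hdivM : ∀ v : Place Qbar (Fbar M),
      (m : ℤ) ∣ v.ord (⟨coeffMap A.subtype P, hle hP⟩ : Fbar M) -
        v.ord (⟨coeffMap A.subtype Q, hle hQ⟩ : Fbar M) := by
    intro v
    obtain ⟨w, e, -, hord, -⟩ := PlaceRestrict2.exists_restrict_le hle halg v
    have h1 := hord ⟨coeffMap A.subtype P, hP⟩
    have h2 := hord ⟨coeffMap A.subtype Q, hQ⟩
    have e1 : IntermediateField.inclusion hle ⟨coeffMap A.subtype P, hP⟩ =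
        (⟨coeffMap A.subtype P, hle hP⟩ : Fbar M) := rfl
    have e2 : IntermediateField.inclusion hle ⟨coeffMap A.subtype Q, hQ⟩ =
        (⟨coeffMap A.subtype Q, hle hQ⟩ : Fbar M) := rfl
    rw [e1] at h1
    rw [e2] at h2
    rw [h1, h2, ← mul_sub]
    exact Dvd.dvd.mul_left (hdiv w) _
  obtain ⟨s, hs⟩ := hCL P Q (hle hP) (hle hQ) hred hne m hm hdivM
  -- `h := P / Q`
  set h : Fbar N := (⟨coeffMap A.subtype P, hP⟩ : Fbar N) / ⟨coeffMap A.subtype Q, hQ⟩ with hh
  have hincl : IntermediateField.inclusion hle h =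
      (⟨coeffMap A.subtype P, hle hP⟩ : Fbar M) / ⟨coeffMap A.subtype Q, hle hQ⟩ := by
    rw [hh, map_div₀]
    rfl
  have hQM0 : (⟨coeffMap A.subtype Q, hle hQ⟩ : Fbar M) ≠ 0 := by
    intro h0
    have h1 : coeffMap A.subtype Q = 0 := congrArg Subtype.val h0
    exact hQ0 (Subtype.ext h1)
  have hsm : s ^ m = IntermediateField.inclusion hle h := by
    rw [hincl, eq_div_iff hQM0, hs]
  have hordh : ∀ w : Place Qbar (Fbar N), (m : ℤ) ∣ w.ord h := by
    intro w
    rw [hh, div_eq_mul_inv, w.ord_mul hP0 (inv_ne_zero hQ0), w.ord_inv, ← sub_eq_add_neg]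
    exact hdiv w
  obtain ⟨f, hf⟩ := hrd m hm0 h s hsm hordh
  refine ⟨f, ?_⟩
  apply (IntermediateField.inclusion hle).injective
  rw [map_mul, map_pow]
  show (IntermediateField.inclusion hle) f ^ m * _ = _
  rw [hf]
  exact hs

end Fermat.Agent.RED.LVL.LevelStepAbs2

end
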