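/-
Program H (S18), chapter LVL, leaf (L1) -- helper17.

ABSTRACT LEVEL DESCENT by a value-group argument (no Kummer theory, no ramification theory).

Setting: `k` a field, `V = qExpand k e : k((T)) → k((T))` (`T ↦ T^e`), `m` with `(m : k) ≠ 0`.

* `mem_range_qExpand_of_pow_mem` (root closure): if `y ≠ 0`, `e ∣ ord y` and `y ^ m ∈ V(k((T)))`
  then `y ∈ V(k((T)))`.
* `exists_algebraMap_eq_of_pow_eq` (descent): fields `F ⊂ M`, `[M : F] < 2e`, a ring hom
  `ι : M → k((T))` with `ι(F) ⊂ V(k((T)))` and some `x₀ : M` with `ord (ι x₀)` prime to `e`;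
  if `s ^ m = h ∈ F` and `e * m ∣ ord (ι h)` then `s ∈ F`.

Application (chapter LVL): `F = ℚ̄·F_N`, `M = ℚ̄·F_M`, `ι` = expansion at the cusp `0` in
`T = q^(1/M)`, `e = M / N`, `x₀ = j(M z)` (order `-1`), `[M : F] = ψ(M)/ψ(N) < 2e`.
-/
import Mathlib
import Fermat.Agent.IG.PR.RamDeg25
import Fermat.Agent.IG.AN.SectionKit3

set_option autoImplicit false

noncomputable section

namespace Fermat.Agent.RED.LVL.ValueGroupDescent17

open HahnSeries ModularCurve
open Fermat.Agent.IG.PR.RamDeg25 Fermat.Agent.IG.AN.SectionKit3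

variable {k : Type*} [Field k]

/-! ### One-units -/

theorem coeff_order_ne_zero {x : LaurentSeries k} (hx : x ≠ 0) : x.coeff x.order ≠ 0 :=
  coeff_order_eq_zero.not.mpr hx

/-- A series `1 + ρ` with `ρ = 0` or `0 < ord ρ` has coefficient `1` at `0` and no negative terms. -/
theorem coeff_one_add_of_pos {ρ : LaurentSeries k} (hρ : ρ = 0 ∨ 0 < ρ.order) :
    (1 + ρ).coeff 0 = 1 ∧ ∀ i : ℤ, i < 0 → (1 + ρ).coeff i = 0 := by
  rcases hρ with rfl | hρ
  · refine ⟨by simp, fun i hi => ?_⟩
    rw [add_zero, coeff_one, if_neg hi.ne]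
  · refine ⟨?_, fun i hi => ?_⟩
    · rw [coeff_add, coeff_one, if_pos rfl, coeff_eq_zero_of_lt_order hρ, add_zero]
    · rw [coeff_add, coeff_one, if_neg hi.ne, coeff_eq_zero_of_lt_order (hi.trans hρ), add_zero]

/-- The class of series with coefficient `1` at `0` and no negative terms is closed under
products. -/
theorem coeff_mul_of_oneUnit {u v : LaurentSeries k}
    (hu : u.coeff 0 = 1 ∧ ∀ i : ℤ, i < 0 → u.coeff i = 0)
    (hv : v.coeff 0 = 1 ∧ ∀ i : ℤ, i < 0 → v.coeff i = 0) :
    (u * v).coeff 0 = 1 ∧ ∀ i : ℤ, i < 0 → (u * v).coeff i = 0 := by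
  have hu0 : u ≠ 0 := fun h => by simp [h] at hu
  have hv0 : v ≠ 0 := fun h => by simp [h] at hv
  have hou : u.order = 0 := by
    refine le_antisymm (order_le_of_coeff_ne_zero (by rw [hu.1]; exact one_ne_zero)) ?_
    by_contra hlt
    rw [not_le] at hlt
    exact coeff_order_ne_zero hu0 (hu.2 _ hlt)
  have hov : v.order = 0 := by
    refine le_antisymm (order_le_of_coeff_ne_zero (by rw [hv.1]; exact one_ne_zero)) ?_
    by_contra hlt
    rw [not_le] at hlt
    exact coeff_order_ne_zero hv0 (hv.2 _ hlt)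
  have houv : (u * v).order = 0 := by rw [order_mul hu0 hv0, hou, hov, add_zero]
  refine ⟨?_, fun i hi => coeff_eq_zero_of_lt_order (by rw [houv]; exact hi)⟩
  have := coeff_mul_order_add_order u v
  rw [hou, hov, add_zero, leadingCoeff_eq, leadingCoeff_eq, hou, hov, hu.1, hv.1, mul_one] at this
  exact this

theorem coeff_pow_of_oneUnit {u : LaurentSeries k}
    (hu : u.coeff 0 = 1 ∧ ∀ i : ℤ, i < 0 → u.coeff i = 0) (j : ℕ) :
    (u ^ j).coeff 0 = 1 ∧ ∀ i : ℤ, i < 0 → (u ^ j).coeff i = 0 := by
  induction j with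
  | zero =>
    refine ⟨by simp, fun i hi => ?_⟩
    rw [pow_zero, coeff_one, if_neg hi.ne]
  | succ j ih =>
    rw [pow_succ]
    exact coeff_mul_of_oneUnit ih hu

/-- For a one-unit `u`, the geometric sum `∑_{j<m} u^j` has coefficient `m` at `0` and no negative
terms; in particular it is nonzero of order `0` when `(m : k) ≠ 0`. -/
theorem order_geom_sum_of_oneUnit {u : LaurentSeries k}
    (hu : u.coeff 0 = 1 ∧ ∀ i : ℤ, i < 0 → u.coeff i = 0) (m : ℕ) (hm : (m : k) ≠ 0) :
    (∑ j ∈ Finset.range m, u ^ j) ≠ 0 ∧ (∑ j ∈ Finset.range m, u ^ j).order = 0 := by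
  have h0 : (∑ j ∈ Finset.range m, u ^ j).coeff 0 = (m : k) := by
    rw [coeff_sum, Finset.sum_congr rfl (fun j _ => (coeff_pow_of_oneUnit hu j).1)]
    simp
  have hneg : ∀ i : ℤ, i < 0 → (∑ j ∈ Finset.range m, u ^ j).coeff i = 0 := by
    intro i hi
    rw [coeff_sum]
    exact Finset.sum_eq_zero fun j _ => (coeff_pow_of_oneUnit hu j).2 i hi
  have hne : (∑ j ∈ Finset.range m, u ^ j) ≠ 0 := fun h => by
    rw [h, HahnSeries.coeff_zero] at h0
    exact hm h0.symm
  refine ⟨hne, le_antisymm (order_le_of_coeff_ne_zero (by rw [h0]; exact hm)) ?_⟩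
  by_contra hlt
  rw [not_le] at hlt
  exact coeff_order_ne_zero hne (hneg _ hlt)

/-! ### Root closure of `k((T^e))` inside `k((T))` -/

variable (e : ℕ) [NeZero e]

/-- The `e`-divisible part of a Laurent series lies in the range of `qExpand`, and the remainder
has no coefficient at multiples of `e`. -/
theorem coeff_sub_qExpand_sec (y : LaurentSeries k) (n : ℤ) :
    (y - qExpand k e (sec e 0 y)).coeff ((e : ℤ) * n) = 0 := by
  rw [HahnSeries.coeff_sub, qExpand_coeff_mul, sec_coeff]
  simp

theorem coeff_qExpand_sec_of_dvd (y : LaurentSeries k) (n : ℤ) :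
    (qExpand k e (sec e 0 y)).coeff ((e : ℤ) * n) = y.coeff ((e : ℤ) * n) := by
  rw [qExpand_coeff_mul, sec_coeff]
  simp

/-- **Root closure.** If `y ≠ 0`, `e ∣ ord y` and `y ^ m` lies in the range of `T ↦ T^e`,
with `(m : k) ≠ 0`, then `y` lies in the range of `T ↦ T^e`. -/
theorem mem_range_qExpand_of_pow_mem {m : ℕ} (hm : (m : k) ≠ 0) {y : LaurentSeries k}
    (hy0 : y ≠ 0) (hord : (e : ℤ) ∣ y.order) (hpow : y ^ m ∈ Set.range (qExpand k e)) :
    y ∈ Set.range (qExpand k e) := by
  classical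
  set P : LaurentSeries k := qExpand k e (sec e 0 y) with hP
  set R : LaurentSeries k := y - P with hR
  by_contra hmem
  have hR0 : R ≠ 0 := by
    intro h
    apply hmem
    exact ⟨sec e 0 y, by rw [← hP]; exact (sub_eq_zero.mp h).symm⟩
  obtain ⟨a, ha⟩ := hord
  -- `P` has the same leading term as `y`
  have hPcoeff : P.coeff y.order = y.coeff y.order := by
    rw [ha]; exact coeff_qExpand_sec_of_dvd e y a
  have hP0 : P ≠ 0 := by
    intro h
    rw [h, HahnSeries.coeff_zero] at hPcoeff
    exact coeff_order_ne_zero hy0 hPcoeff.symm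
  -- the order of `R` is not divisible by `e`
  have hRord : ¬ (e : ℤ) ∣ R.order := by
    rintro ⟨n, hn⟩
    apply coeff_order_ne_zero hR0
    rw [hn]
    exact coeff_sub_qExpand_sec e y n
  -- `P` has order `ord y` and `ord R > ord y`
  have hPord : P.order = y.order := by
    refine le_antisymm (order_le_of_coeff_ne_zero (by rw [hPcoeff]; exact coeff_order_ne_zero hy0)) ?_
    by_contra hlt
    rw [not_le] at hlt
    apply coeff_order_ne_zero hP0
    obtain ⟨b, hb⟩ := dvd_order_qExpand e (sec e 0 y)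
    rw [← hP] at hb
    rw [hb, coeff_qExpand_sec_of_dvd, ← hb]
    exact coeff_eq_zero_of_lt_order hlt
  have hRgt : y.order < R.order := by
    by_contra hle
    rw [not_lt] at hle
    rcases hle.lt_or_eq with hlt | heq
    · apply coeff_order_ne_zero hR0
      rw [hR, HahnSeries.coeff_sub, coeff_eq_zero_of_lt_order hlt,
        coeff_eq_zero_of_lt_order (by rw [hPord]; exact hlt), sub_zero]
    · exact hRord (heq ▸ ⟨a, ha⟩)
  -- normalise: `w = y / P = 1 + ρ`
  set ρ : LaurentSeries k := R * P⁻¹ with hρ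
  have hρ0 : ρ ≠ 0 := mul_ne_zero hR0 (inv_ne_zero hP0)
  have hρP : ρ * P = R := by rw [hρ, mul_assoc, inv_mul_cancel₀ hP0, mul_one]
  have hρord : ρ.order = R.order - y.order := by
    have := order_mul hρ0 hP0
    rw [hρP, hPord] at this
    omega
  have hρpos : 0 < ρ.order := by rw [hρord]; omega
  have hu := coeff_one_add_of_pos (Or.inr hρpos)
  obtain ⟨hS0, hSord⟩ := order_geom_sum_of_oneUnit hu m hm
  -- `(1 + ρ)^m - 1 = S * ρ` lies in the (field) range of `qExpand`
  have hgeom : (∑ j ∈ Finset.range m, (1 + ρ) ^ j) * ρ = (1 + ρ) ^ m - 1 := by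
    have := geom_sum_mul (1 + ρ) m
    rwa [add_sub_cancel_left] at this
  have hw : 1 + ρ = y * P⁻¹ := by
    rw [hρ, hR, sub_mul, mul_inv_cancel₀ hP0]; ring
  have hmemF : (1 + ρ) ^ m - 1 ∈ (qExpand k e).fieldRange := by
    refine sub_mem ?_ (one_mem _)
    rw [hw, mul_pow, inv_pow]
    refine mul_mem ?_ (inv_mem (pow_mem ?_ m))
    · obtain ⟨g, hg⟩ := hpow
      exact ⟨g, hg⟩
    · exact ⟨sec e 0 y, rfl⟩
  obtain ⟨g, hg⟩ := hmemF
  have hdvd : (e : ℤ) ∣ ((∑ j ∈ Finset.range m, (1 + ρ) ^ j) * ρ).order := by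
    rw [hgeom, ← hg]
    exact dvd_order_qExpand e g
  rw [order_mul hS0 hρ0, hSord, zero_add, hρord] at hdvd
  apply hRord
  have : R.order = (R.order - y.order) + y.order := by ring
  rw [this]
  exact dvd_add hdvd ⟨a, ha⟩

/-! ### The descent -/

variable {F M : Type*} [Field F] [Field M] [Algebra F M] [FiniteDimensional F M]

/-- **Abstract level descent.**  Let `F ⊂ M` be fields with `[M : F] < 2e`, and `ι : M → k((T))` a
ring homomorphism mapping `F` into `k((T^e))`, such that some `x₀ : M` has `ord (ι x₀)` prime to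
`e`.  If `s : M` satisfies `s ^ m = h ∈ F` with `(m : k) ≠ 0` and `e * m ∣ ord (ι h)`, then
`s ∈ F`. -/
theorem exists_algebraMap_eq_of_pow_eq (ι : M →+* LaurentSeries k) {m : ℕ} (hm : (m : k) ≠ 0)
    (hF : ∀ f : F, ι (algebraMap F M f) ∈ Set.range (qExpand k e))
    (x₀ : M) (hx₀ : IsCoprime (ι x₀).order (e : ℤ))
    (hdeg : Module.finrank F M < 2 * e)
    (s : M) (h : F) (hs : s ^ m = algebraMap F M h)
    (hord : ((e : ℤ) * (m : ℤ)) ∣ (ι (algebraMap F M h)).order) :
    ∃ f : F, algebraMap F M f = s := by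
  classical
  have hm0 : m ≠ 0 := by rintro rfl; simp at hm
  rcases eq_or_ne s 0 with rfl | hs0
  · exact ⟨0, map_zero _⟩
  have hιinj : Function.Injective ι := ι.injective
  have hy0 : ι s ≠ 0 := (map_ne_zero_iff ι hιinj).mpr hs0
  -- Step 1: `ι s` lies in the range of `qExpand`.
  have hpow : (ι s) ^ m ∈ Set.range (qExpand k e) := by
    rw [← map_pow, hs]; exact hF h
  have hords : (e : ℤ) ∣ (ι s).order := by
    have h1 : (ι (algebraMap F M h)).order = (m : ℤ) * (ι s).order := by
      rw [← hs, map_pow, order_pow, nsmul_eq_mul]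
    rw [h1] at hord
    have hmz : (m : ℤ) ≠ 0 := by exact_mod_cast hm0
    obtain ⟨c, hc⟩ := hord
    refine ⟨c, ?_⟩
    have : (m : ℤ) * (ι s).order = (m : ℤ) * ((e : ℤ) * c) := by rw [hc]; ring
    exact mul_left_cancel₀ hmz this
  have hsmem : ι s ∈ Set.range (qExpand k e) :=
    mem_range_qExpand_of_pow_mem e hm hy0 hords hpow
  -- Step 2: the intermediate field `L` of all elements mapping into the range contains `F(s)`.
  let L : IntermediateField F M :=
    ((qExpand k e).fieldRange.comap ι).toIntermediateField (fun f => by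
        show ι (algebraMap F M f) ∈ (qExpand k e).fieldRange
        obtain ⟨g, hg⟩ := hF f
        exact ⟨g, hg⟩)
  have hLmem : ∀ z : M, z ∈ L ↔ ι z ∈ Set.range (qExpand k e) := by
    intro z
    show z ∈ (qExpand k e).fieldRange.comap ι ↔ _
    rw [Subfield.mem_comap, RingHom.mem_fieldRange, Set.mem_range]
  set E : IntermediateField F M := IntermediateField.adjoin F {s} with hE
  have hEL : E ≤ L := by
    rw [hE, IntermediateField.adjoin_le_iff]
    rintro z (rfl : z = s)
    exact (hLmem _).mpr hsmem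
  -- Step 3: the minimal polynomial of `x₀` over `E` has degree at least `e`.
  letI algE : Algebra E (LaurentSeries k) := (ι.comp (algebraMap E M)).toAlgebra
  have hEF : ∀ a : E, algebraMap E (LaurentSeries k) a ∈ Set.range (qExpand k e) := by
    intro a
    show ι (algebraMap E M a) ∈ _
    exact (hLmem _).mp (hEL a.2)
  have hge : e ≤ Module.finrank E M := by
    by_cases he1 : e = 1
    · rw [he1]; exact Module.finrank_pos
    · have hx₀0 : ι x₀ ≠ 0 := by
        intro h0
        rw [h0, order_zero] at hx₀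
        have hu : IsUnit (e : ℤ) := isCoprime_zero_left.mp hx₀
        rcases Int.isUnit_iff.mp hu with h | h
        · exact he1 (by exact_mod_cast h)
        · have : (0 : ℤ) ≤ e := Int.natCast_nonneg _
          omega
      by_contra hlt
      rw [not_le] at hlt
      have hmin : (minpoly E x₀).natDegree < e := lt_of_le_of_lt (minpoly.natDegree_le x₀) hlt
      have hint : IsIntegral E x₀ := Algebra.IsIntegral.isIntegral x₀
      have hne := aeval_ne_zero_of_range (F := E) hx₀0 hx₀ hEF (minpoly E x₀)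
        (minpoly.ne_zero hint) hmin
      apply hne
      rw [Polynomial.aeval_def]
      show Polynomial.eval₂ (ι.comp (algebraMap E M)) (ι x₀) (minpoly E x₀) = 0
      rw [← Polynomial.hom_eval₂, ← Polynomial.aeval_def, minpoly.aeval, map_zero]
  -- Step 4: degree count.
  have hmul : Module.finrank F E * Module.finrank E M = Module.finrank F M :=
    Module.finrank_mul_finrank F E M
  have hFE : Module.finrank F E = 1 := by
    have hpos : 0 < Module.finrank F E := Module.finrank_pos
    by_contra hne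
    have h2 : 2 ≤ Module.finrank F E := by omega
    have : 2 * e ≤ Module.finrank F M := by rw [← hmul]; exact Nat.mul_le_mul h2 hge
    omega
  have hbot : E = ⊥ := IntermediateField.finrank_eq_one_iff.mp hFE
  have hsE : s ∈ E := IntermediateField.mem_adjoin_simple_self F s
  rw [hbot, IntermediateField.mem_bot] at hsE
  exact hsE

end Fermat.Agent.RED.LVL.ValueGroupDescent17
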