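/-
Program H (S18), chapter LVL, helper2: root descent from a Laurent-series embedding.

Abstract form of the level descent with the hypothesis on PLACES (as in `CLBar` / `RootDescent`):
fields `K ⊂ F ⊂ M`, `[M : F] < 2e`, `ι : M → K((T))` a ring hom which is the identity on
constants, maps `F` into `K((T^e))`, is non-constant on `F`, and some `x₀ : M` has `ord (ι x₀)`
prime to `e`.  If `s ^ m = h ∈ F` and `m ∣ ord_w h` at EVERY place `w` of `F / K`, then `s ∈ F`.
(The place of `F` cut out by `ι` has `ord ∘ ι = m₀ · ord_{w₀}` with `e ∣ m₀`, so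
`e · m ∣ ord (ι h)`, and `ValueGroupDescent17.exists_algebraMap_eq_of_pow_eq` applies.)
-/
import Mathlib
import Fermat.Agent.X0.LaurentPlace
import Fermat.Agent.RED.LVL.ValueGroupDescent17

set_option autoImplicit false

noncomputable section

namespace Fermat.Agent.RED.LVL.RootDescentEmb2

open HahnSeries AlgebraicCurve ModularCurve
open Fermat.Agent.X0 Fermat.Agent.IG.PR.RamDeg25

variable {K F M : Type*} [Field K] [Field F] [Field M] [Algebra K F] [Algebra K M] [Algebra F M]
  [IsScalarTower K F M] [FiniteDimensional F M]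

omit [FiniteDimensional F M] in
/-- `e · m ∣ ord (ι h)` from divisibility of the orders of `h` at all places of `F`. -/
theorem mul_dvd_order_of_forall_place (e : ℕ) [NeZero e] (ι : M →+* LaurentSeries K)
    (hι : ∀ c : K, ι (algebraMap K M c) = HahnSeries.C c)
    (hF : ∀ f : F, ι (algebraMap F M f) ∈ Set.range (qExpand K e))
    (hnt : ∃ f : F, f ≠ 0 ∧ (ι (algebraMap F M f)).order ≠ 0)
    {m : ℕ} {h : F} (hh : h ≠ 0) (hpl : ∀ w : Place K F, (m : ℤ) ∣ w.ord h) :
    ((e : ℤ) * (m : ℤ)) ∣ (ι (algebraMap F M h)).order := by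
  set τ : F →+* LaurentSeries K := ι.comp (algebraMap F M) with hτdef
  have hτ : ∀ c : K, τ (algebraMap K F c) = HahnSeries.C c := fun c => by
    rw [hτdef, RingHom.comp_apply, ← IsScalarTower.algebraMap_apply, hι]
  have hnt' : ∃ f : F, f ≠ 0 ∧ (τ f).order ≠ 0 := hnt
  obtain ⟨m₀, -, hspec⟩ := LaurentPlace.embPlace_spec τ hτ hnt'
  have he : (e : ℤ) ∣ (m₀ : ℤ) :=
    LaurentPlace.dvd_of_forall_dvd (w := fun f => (τ f).order) (LaurentPlace.embPlace τ hτ hnt')
      hspec (fun f _ => by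
        obtain ⟨g, hg⟩ := hF f
        show (e : ℤ) ∣ (ι (algebraMap F M f)).order
        rw [← hg]
        exact dvd_order_qExpand e g)
  have h1 : (ι (algebraMap F M h)).order = m₀ * (LaurentPlace.embPlace τ hτ hnt').ord h :=
    hspec h hh
  rw [h1]
  exact mul_dvd_mul he (hpl _)

/-- **Root descent, place form.** -/
theorem exists_algebraMap_eq_of_pow_eq_of_forall_place (e : ℕ) [NeZero e]
    (ι : M →+* LaurentSeries K)
    (hι : ∀ c : K, ι (algebraMap K M c) = HahnSeries.C c)
    (hF : ∀ f : F, ι (algebraMap F M f) ∈ Set.range (qExpand K e))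
    (hnt : ∃ f : F, f ≠ 0 ∧ (ι (algebraMap F M f)).order ≠ 0)
    (x₀ : M) (hx₀ : IsCoprime (ι x₀).order (e : ℤ))
    (hdeg : Module.finrank F M < 2 * e)
    {m : ℕ} (hm : (m : K) ≠ 0) (s : M) (h : F) (hs : s ^ m = algebraMap F M h)
    (hpl : ∀ w : Place K F, (m : ℤ) ∣ w.ord h) :
    ∃ f : F, algebraMap F M f = s := by
  rcases eq_or_ne h 0 with rfl | hh
  · refine ⟨0, ?_⟩
    rw [map_zero] at hs ⊢
    exact (pow_eq_zero_iff (by rintro rfl; simp at hm)).1 hs |>.symm
  · exact ValueGroupDescent17.exists_algebraMap_eq_of_pow_eq e ι hm hF x₀ hx₀ hdeg s h hs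
      (mul_dvd_order_of_forall_place e ι hι hF hnt hh hpl)

end Fermat.Agent.RED.LVL.RootDescentEmb2

end
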