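/-
Program H (S18) / chapter RED/LVL / helper19.

`LevelStepMain19` (L5): the level step `CLBar ℓ M A → CLBar ℓ N A` for `M = auxLevel ℓ N`.

Assembly of
* `LevelStepAbs2.levelStep_of_rootDescent` (bookkeeping, helper2),
* `RootDescentEmb2.exists_algebraMap_eq_of_pow_eq_of_forall_place` (value-group descent, helper2 /
  helper17),
* `LevelDegree17` (`[Fbar M : Fbar N] < 2 (M/N)`, helper17),
* `FrickeExp19` (the cusp-`0` embedding `T_S : Fbar M → ℚbar((q))`).
-/
import Mathlib
import Fermat.Agent.RED.Interface4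
import Fermat.Agent.RED.LVL.LevelStepAbs2
import Fermat.Agent.RED.LVL.RootDescentEmb2
import Fermat.Agent.RED.LVL.LevelDegree17
import Fermat.Agent.RED.LVL.FrickeExp19

set_option autoImplicit false

open ModularCurve IntermediateField AlgebraicCurve

noncomputable section

namespace Fermat.Agent.RED.LVL.LevelStepMain19

open Fermat.Agent.X0 Fermat.Agent.RED.Interface4 Fermat.Agent.RED.BASE.Interface12
open Fermat.Agent.RED.LVL

/-- **Root descent** from level `M = N e` to level `N`, when `[Fbar M : Fbar N] < 2 e`. -/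
theorem rootDescent (N M e : ℕ) [NeZero N] [NeZero M] [NeZero e] (hM : M = N * e)
    (hdeg : relfinrank (Fbar N) (Fbar M) < 2 * e) :
    LevelStepAbs2.RootDescent N M (fbar_mono ⟨e, hM⟩) := by
  have hNM : N ∣ M := ⟨e, hM⟩
  intro m hm h s hs hpl
  let _ : Algebra (Fbar N) (Fbar M) := LevelDegree17.algebraIncl hNM
  have : IsScalarTower Qbar (Fbar N) (Fbar M) :=
    IsScalarTower.of_algebraMap_eq (fun _ => rfl)
  have : FiniteDimensional (Fbar N) (Fbar M) := LevelDegree17.finiteDimensional_algebraIncl hNM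
  have hfin : Module.finrank (Fbar N) (Fbar M) < 2 * e := by
    rw [LevelDegree17.finrank_algebraIncl hNM]
    exact hdeg
  have hm' : ((m : ℕ) : Qbar) ≠ 0 := by exact_mod_cast hm.ne'
  have hx₀ : IsCoprime ((cuspData M).T ModularGroup.S (jdF M M dvd_rfl)).order (e : ℤ) := by
    rw [FrickeExp19.order_T_S_jM]
    exact (isCoprime_one_left).neg_left
  have hnt : ∃ f : Fbar N, f ≠ 0 ∧
      ((cuspData M).T ModularGroup.S (algebraMap (Fbar N) (Fbar M) f)).order ≠ 0 := by
    refine ⟨jF N, ?_, ?_⟩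
    · intro h0
      have := FrickeExp19.order_T_S_jF N
      rw [h0, map_zero, HahnSeries.order_zero] at this
      have hN : (N : ℤ) ≠ 0 := by exact_mod_cast NeZero.ne N
      omega
    · have h1 : algebraMap (Fbar N) (Fbar M) (jF N) = jF M := rfl
      rw [h1, FrickeExp19.order_T_S_jF M]
      have hM0 : (M : ℤ) ≠ 0 := by exact_mod_cast NeZero.ne M
      omega
  exact RootDescentEmb2.exists_algebraMap_eq_of_pow_eq_of_forall_place e
    ((cuspData M).T ModularGroup.S) (FrickeExp19.T_S_const M)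
    (fun f => FrickeExp19.T_S_mem_range N M e hM f) hnt (jdF M M dvd_rfl) hx₀ hfin hm' s h hs hpl

/-- **Chapter LVL, general form**: `LevelStep ℓ N M A` whenever `M = N e` and
`[Fbar M : Fbar N] < 2 e`. -/
theorem levelStep_of_degree (ℓ N M e : ℕ) [NeZero N] [NeZero M] [NeZero e] (hM : M = N * e)
    (hdeg : relfinrank (Fbar N) (Fbar M) < 2 * e) (A : ValuationSubring Qbar) :
    LevelStep ℓ N M A :=
  LevelStepAbs2.levelStep_of_rootDescent A (fbar_mono ⟨e, hM⟩)
    (LevelDegree17.isAlgebraic_of_mem ⟨e, hM⟩) (rootDescent N M e hM hdeg)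

/-- **Chapter LVL**: `CLBar ℓ (auxLevel ℓ N) A → CLBar ℓ N A`. -/
theorem levelStep (ℓ N : ℕ) [NeZero N] (A : ValuationSubring Qbar) :
    LevelStep ℓ N (auxLevel ℓ N) A := by
  have := LevelDegree17.neZero_auxLevel ℓ N
  obtain ⟨e, he⟩ := dvd_auxLevel ℓ N
  have : NeZero e := ⟨fun h0 => NeZero.ne (auxLevel ℓ N) (by rw [he, h0, mul_zero])⟩
  have hdiv : auxLevel ℓ N / N = e := by
    rw [he]
    exact Nat.mul_div_cancel_left e (Nat.pos_of_ne_zero (NeZero.ne N))
  have hdeg := LevelDegree17.relfinrank_auxLevel_lt ℓ N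
  rw [hdiv] at hdeg
  exact levelStep_of_degree ℓ N (auxLevel ℓ N) e he hdeg A

end Fermat.Agent.RED.LVL.LevelStepMain19
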