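/-
Program H (S18), chapter LVL, leaf (L2), helper2.

`V = qExpand k e : k((q)) → k((q))`, `q ↦ q^e`.  If `S^m ∈ V(k((q)))`, `e ∣ ord_q S` and `m ≠ 0` in
`k`, then `S ∈ V(k((q)))`.  No roots of unity: write `S = S₀ + R` (`S₀` the part of `S` supported on
multiples of `e`), `U := R / S₀` has positive order not divisible by `e`, and
`(1 + U)^m - 1 = U · (m + …)` has the same order as `U`, although it lies in the range of `V`.
-/
import Mathlib
import Fermat.Prelude.Def_ModularCurve_X0ModL
import Fermat.Agent.IG.PR.RamDeg25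
import Fermat.Agent.IG.AN.SectionKit3

set_option autoImplicit false

noncomputable section

namespace Fermat.Agent.RED.LVL.RootRange2

open HahnSeries ModularCurve
open Fermat.Agent.IG.PR.RamDeg25 Fermat.Agent.IG.AN.SectionKit3

section Ring

variable {R : Type*} [CommRing R] (e : ℕ) [NeZero e]

/-- the part of `S` supported on the multiples of `e` (it lies in the range of `qExpand R e`). -/
def divPart (S : LaurentSeries R) : LaurentSeries R := qExpand R e (sec e 0 S)

theorem divPart_mem_range (S : LaurentSeries R) : divPart e S ∈ Set.range (qExpand R e) :=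
  ⟨_, rfl⟩

theorem divPart_coeff_of_dvd (S : LaurentSeries R) {n : ℤ} (h : (e : ℤ) ∣ n) :
    (divPart e S).coeff n = S.coeff n := by
  obtain ⟨c, rfl⟩ := h
  rw [divPart, qExpand_coeff_mul, sec_coeff]
  simp

theorem divPart_coeff_of_not_dvd (S : LaurentSeries R) {n : ℤ} (h : ¬ (e : ℤ) ∣ n) :
    (divPart e S).coeff n = 0 :=
  qExpand_coeff_of_not_dvd e _ h

/-- the range of `q ↦ q^e` consists of the series supported on the multiples of `e`. -/
theorem mem_range_qExpand_iff (f : LaurentSeries R) :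
    f ∈ Set.range (qExpand R e) ↔ ∀ n : ℤ, ¬ (e : ℤ) ∣ n → f.coeff n = 0 := by
  constructor
  · rintro ⟨g, rfl⟩ n hn
    exact qExpand_coeff_of_not_dvd e g hn
  · intro h
    refine ⟨sec e 0 f, ?_⟩
    ext n
    by_cases hn : (e : ℤ) ∣ n
    · exact divPart_coeff_of_dvd e f hn
    · rw [h n hn]
      exact divPart_coeff_of_not_dvd e f hn

end Ring

section Field

variable {k : Type*} [Field k]

/-- a Laurent series of positive order is a power series without constant term. -/
theorem exists_powerSeries_of_order_pos {U : LaurentSeries k} (hU : 0 < U.order) :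
    ∃ u : PowerSeries k, PowerSeries.constantCoeff u = 0 ∧
      HahnSeries.ofPowerSeries ℤ k u = U := by
  refine ⟨PowerSeries.X ^ U.order.toNat * U.powerSeriesPart, ?_, ?_⟩
  · have hd : U.order.toNat ≠ 0 := by omega
    rw [map_mul, map_pow, PowerSeries.constantCoeff_X, zero_pow hd, zero_mul]
  · exact LaurentSeries.X_order_mul_powerSeriesPart (Int.toNat_of_nonneg hU.le)

/-- `(1 + U)^m - 1` has the order of `U` when `ord U > 0` and `m ≠ 0` in `k`. -/
theorem order_one_add_pow_sub_one {U : LaurentSeries k} (hU0 : U ≠ 0) (hU : 0 < U.order)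
    (m : ℕ) (hm : (m : k) ≠ 0) :
    (1 + U) ^ m - 1 ≠ 0 ∧ ((1 + U) ^ m - 1).order = U.order := by
  obtain ⟨u, hu0, rfl⟩ := exists_powerSeries_of_order_pos hU
  set G : LaurentSeries k :=
    ∑ i ∈ Finset.range m, (1 + HahnSeries.ofPowerSeries ℤ k u) ^ i with hG
  have hW : (1 + HahnSeries.ofPowerSeries ℤ k u) ^ m - 1 = HahnSeries.ofPowerSeries ℤ k u * G := by
    rw [hG, ← mul_geom_sum, add_sub_cancel_left]
  have hGp : G = HahnSeries.ofPowerSeries ℤ k (∑ i ∈ Finset.range m, (1 + u) ^ i) := by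
    rw [hG, map_sum]
    refine Finset.sum_congr rfl fun i _ => ?_
    rw [map_pow, map_add, map_one]
  have hc : PowerSeries.constantCoeff (∑ i ∈ Finset.range m, (1 + u) ^ i) = (m : k) := by
    rw [map_sum]
    simp [hu0]
  have hG0c : G.coeff 0 = (m : k) := by
    rw [hGp, ← hc, ← PowerSeries.coeff_zero_eq_constantCoeff_apply]
    exact HahnSeries.ofPowerSeries_apply_coeff _ 0
  have hGne : G ≠ 0 := by
    intro h0
    rw [h0] at hG0c
    exact hm hG0c.symm
  have hGord : G.order = 0 := by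
    refine le_antisymm (order_le_of_coeff_ne_zero (by rw [hG0c]; exact hm)) ?_
    by_contra hlt
    rw [not_le] at hlt
    have h1 : G.coeff G.order = 0 := by
      rw [hGp] at hlt ⊢
      exact ofPowerSeries_coeff_of_neg _ hlt
    exact coeff_order_eq_zero.not.2 hGne h1
  rw [hW]
  exact ⟨mul_ne_zero hU0 hGne, by rw [order_mul hU0 hGne, hGord, add_zero]⟩

variable (e : ℕ) [NeZero e]

/-- **(L2)**: an `m`-th root (`m ≠ 0` in `k`) of an element of `k((q^e))` whose order is
divisible by `e` lies in `k((q^e))`. -/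
theorem mem_range_qExpand_of_pow_mem (m : ℕ) (hm : (m : k) ≠ 0) (S : LaurentSeries k)
    (hS : S ^ m ∈ Set.range (qExpand k e)) (hord : (e : ℤ) ∣ S.order) :
    S ∈ Set.range (qExpand k e) := by
  by_cases hS0 : S = 0
  · exact ⟨0, by rw [hS0, map_zero]⟩
  set S₀ := divPart e S with hS₀
  set R := S - S₀ with hR
  by_cases hR0 : R = 0
  · rw [hR, sub_eq_zero] at hR0
    rw [hR0]
    exact divPart_mem_range e S
  exfalso
  -- coefficients of `R`
  have hRdvd : ∀ n : ℤ, (e : ℤ) ∣ n → R.coeff n = 0 := fun n hn => by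
    rw [hR, coeff_sub, hS₀, divPart_coeff_of_dvd e S hn, sub_self]
  have hRndvd : ∀ n : ℤ, ¬ (e : ℤ) ∣ n → R.coeff n = S.coeff n := fun n hn => by
    rw [hR, coeff_sub, hS₀, divPart_coeff_of_not_dvd e S hn, sub_zero]
  have hRord : ¬ (e : ℤ) ∣ R.order := fun h =>
    coeff_order_eq_zero.not.2 hR0 (hRdvd _ h)
  -- `S₀ ≠ 0`, `ord S₀ ≤ ord S < ord R`
  have hS₀c : S₀.coeff S.order ≠ 0 := by
    rw [hS₀, divPart_coeff_of_dvd e S hord]
    exact coeff_order_eq_zero.not.2 hS0
  have hS₀0 : S₀ ≠ 0 := fun h => hS₀c (by rw [h]; rfl)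
  have h1 : S₀.order ≤ S.order := order_le_of_coeff_ne_zero hS₀c
  have h2 : S.order ≤ R.order := by
    refine order_le_of_coeff_ne_zero ?_
    rw [← hRndvd _ hRord]
    exact coeff_order_eq_zero.not.2 hR0
  have h3 : S.order ≠ R.order := fun h => hRord (h ▸ hord)
  have hS₀ord : (e : ℤ) ∣ S₀.order := dvd_order_qExpand e _
  -- `U = R / S₀`
  set U := R * S₀⁻¹ with hU
  have hU0 : U ≠ 0 := mul_ne_zero hR0 (inv_ne_zero hS₀0)
  have hUS : U * S₀ = R := by rw [hU, mul_assoc, inv_mul_cancel₀ hS₀0, mul_one]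
  have hUord : U.order + S₀.order = R.order := by rw [← order_mul hU0 hS₀0, hUS]
  have hUpos : 0 < U.order := by
    have := lt_of_le_of_ne h2 h3
    omega
  have hUndvd : ¬ (e : ℤ) ∣ U.order := fun h => hRord (by rw [← hUord]; exact dvd_add h hS₀ord)
  -- `(1 + U)^m = S^m / S₀^m` lies in the range
  have h1U : 1 + U = S * S₀⁻¹ := by
    rw [hU, hR, sub_mul, mul_inv_cancel₀ hS₀0]
    ring
  obtain ⟨a, ha⟩ := hS
  have hW : (1 + U) ^ m - 1 = qExpand k e (a / (sec e 0 S) ^ m - 1) := by
    rw [h1U, mul_pow, inv_pow, map_sub, map_one, map_div₀, map_pow, ha, div_eq_mul_inv]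
    rfl
  obtain ⟨hWne, hWord⟩ := order_one_add_pow_sub_one hU0 hUpos m hm
  apply hUndvd
  rw [← hWord, hW]
  exact dvd_order_qExpand e _

end Field

end Fermat.Agent.RED.LVL.RootRange2

end
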