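/-
Program H (S18), chapter RED/LVL, leaf (L3) (helper17): the FRICKE EXPANSION
`τ := (cuspData M).T S : FF M →+* ℚbar((q))` (expansion at the cusp `0`, `q = q_M`).

* `T_S_jdF`   : for ANY interface pair `(D, C)`: `C.T S (x_d) = j(q^{N/d})`, i.e.
                `qExpand (N/d) jqK`, for `d ∣ N`  (`x_d(S z) = j(z/d)`).
* `T_S_const` : `C.T S c = C c`.
* `tauS_inclusion_mem_range` : **(hF)** for `N ∣ M`: `τ(Fbar N) ⊂ range (qExpand (M/N))`.
* `tauS_jdF_self`, `order_tauS_jdF_self`, `isCoprime_order_tauS_jdF_self` : **(x₀)** `τ(x_M) = j(q)`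
                has order `-1`.
* `exists_order_tauS_ne_zero` : **(hnt)** `τ(j)` has order `-M ≠ 0`.
These are literally the `ι`-hypotheses of
`RootDescentEmb2.exists_algebraMap_eq_of_pow_eq_of_forall_place` for `ι := tauS M`.
-/
import Mathlib
import Fermat.Agent.X0.Integrality
import Fermat.Agent.X0.CuspExpand
import Fermat.Agent.X0.CuspPlaces
import Fermat.Agent.X0.FracR
import Fermat.Agent.RED.Interface4
import Fermat.Agent.RED.BASE.Interface12

set_option autoImplicit false
set_option linter.unusedSectionVars false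

noncomputable section

namespace Fermat.Agent.RED.LVL.FrickeExp17

open Fermat.Agent.X0 Fermat.Agent.X0.Analytic
open UpperHalfPlane ModularCurve IntermediateField
open scoped MatrixGroups
open Fermat.Agent.RED.Interface4 Fermat.Agent.RED.BASE.Interface12

section General

variable (N : ℕ) [NeZero N] (D : RealizeData N) (C : CuspData N D)

/-- `j(d · S(N z)) = j((N/d) z)`. -/
theorem jdFun_S_scaleH (d : ℕ) [NeZero d] (hd : d ∣ N) [NeZero (N / d)] (z : ℍ) :
    jdFun d (ModularGroup.S • scaleH N z) = jFun (scaleH (N / d) z) := by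
  have h : scaleH d (ModularGroup.S • scaleH N z) = ModularGroup.S • scaleH (N / d) z := by
    apply UpperHalfPlane.ext
    rw [coe_scaleH, modular_S_smul, modular_S_smul]
    simp only [coe_scaleH]
    obtain ⟨c, rfl⟩ := hd
    have hd0 : (d : ℂ) ≠ 0 := by exact_mod_cast NeZero.ne d
    have hc0 : (c : ℂ) ≠ 0 := by
      have : c ≠ 0 := by rintro rfl; simp at *
      exact_mod_cast this
    have hz : (z : ℂ) ≠ 0 := UpperHalfPlane.ne_zero z
    rw [Nat.mul_div_cancel_left c (Nat.pos_of_ne_zero (NeZero.ne d))]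
    push_cast
    field_simp
  rw [jdFun, h, jFun_smul]

/-- **Fricke expansion of the generators**: `T_S(x_d) = j(q_N^{N/d})`. -/
theorem T_S_jdF (d : ℕ) [NeZero d] (hd : d ∣ N) [NeZero (N / d)] :
    C.T ModularGroup.S (jdF N d hd) = qExpand Kbar (N / d) jqK := by
  have h1 : ((jdR N d hd : Rsub N) : FF N) = jdF N d hd := rfl
  rw [← h1]
  apply intg_T_eq_of_qn
  rw [D.jd_eq d hd, intg_toC_jN]
  have h2 : (fun z => compSL (jdFun d) ModularGroup.S (scaleH N z)) =
      fun z => jFun (scaleH (N / d) z) := funext fun z => jdFun_S_scaleH N d hd z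
  show HasQExp _ _
  rw [h2]
  exact hasQExp_jqModC.qExpand (N / d)

/-- `T_S` is the identity on constants. -/
theorem T_S_const (c : Kbar) :
    C.T ModularGroup.S (algebraMap Kbar (FF N) c) = HahnSeries.C c := by
  rw [intg_T_algebraMap, algebraMap_laurentSeries_eq_single]
  rfl

end General

theorem neZero_div {N M : ℕ} [NeZero M] (h : N ∣ M) : NeZero (M / N) := by
  obtain ⟨c, rfl⟩ := h
  refine ⟨?_⟩
  have hM := NeZero.ne (N * c)
  have hN : N ≠ 0 := fun h0 => hM (by rw [h0, zero_mul])
  have hc : c ≠ 0 := fun h0 => hM (by rw [h0, mul_zero])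
  rwa [Nat.mul_div_cancel_left c (Nat.pos_of_ne_zero hN)]

section Tower

theorem mem_comap_iff {K L L' : Type*} [Field K] [Field L] [Field L'] [Algebra K L] [Algebra K L']
    (f : L →ₐ[K] L') (S : IntermediateField K L') (x : L) : x ∈ S.comap f ↔ f x ∈ S := Iff.rfl

/-- The Fricke expansion map at level `M`. -/
abbrev tauS (M : ℕ) [NeZero M] : FF M →+* LaurentSeries Kbar := (cuspData M).T ModularGroup.S

theorem tauS_const (M : ℕ) [NeZero M] (c : Kbar) :
    tauS M (algebraMap Kbar (FF M) c) = HahnSeries.C c :=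
  T_S_const M (realizeData M) (cuspData M) c

/-- The intermediate field of `FF M` of the elements whose Fricke expansion is a series in
`q^e`. -/
def rangeField (M : ℕ) [NeZero M] (e : ℕ) [NeZero e] : IntermediateField Kbar (FF M) :=
  { (qExpand Kbar e).fieldRange.comap (tauS M) with
    algebraMap_mem' := fun c => by
      show tauS M (algebraMap Kbar (FF M) c) ∈ (qExpand Kbar e).fieldRange
      rw [tauS_const]
      exact ⟨HahnSeries.C c, qExpand_C e c⟩ }

theorem mem_rangeField {M : ℕ} [NeZero M] {e : ℕ} [NeZero e] {y : FF M} :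
    y ∈ rangeField M e ↔ tauS M y ∈ Set.range (qExpand Kbar e) := Iff.rfl

variable {N M : ℕ} [NeZero N] [NeZero M] (h : N ∣ M)

theorem coe_inclusion_jdF (d : ℕ) [NeZero d] (hd : d ∣ N) :
    ((IntermediateField.inclusion (fbar_mono h) (jdF N d hd) : FF M) : LaurentSeries Kbar) =
      ((jdF M d (hd.trans h) : FF M) : LaurentSeries Kbar) := by
  rw [IntermediateField.coe_inclusion]
  rw [FracR.coe_jdF, FracR.coe_jdF]

theorem inclusion_jdF (d : ℕ) [NeZero d] (hd : d ∣ N) :
    IntermediateField.inclusion (fbar_mono h) (jdF N d hd) = jdF M d (hd.trans h) :=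
  Subtype.val_injective (coe_inclusion_jdF h d hd)

/-- The Fricke expansion of `x_d` (`d ∣ N ∣ M`) at level `M` is a series in `q^(M/N)`. -/
theorem jdF_mem_rangeField [NeZero (M / N)] (d : ℕ) [NeZero d] (hd : d ∣ N) :
    jdF M d (hd.trans h) ∈ rangeField M (M / N) := by
  have : NeZero (M / d) := neZero_div (hd.trans h)
  have : NeZero (N / d) := neZero_div hd
  rw [mem_rangeField]
  have h1 : tauS M (jdF M d (hd.trans h)) = qExpand Kbar (M / d) jqK :=
    T_S_jdF M (realizeData M) (cuspData M) d (hd.trans h)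
  rw [h1]
  refine ⟨qExpand Kbar (N / d) jqK, ?_⟩
  rw [qExpand_qExpand]
  apply qExpand_congr
  obtain ⟨a, rfl⟩ := hd
  obtain ⟨b, rfl⟩ := h
  have hd0 : 0 < d := Nat.pos_of_ne_zero (NeZero.ne d)
  have ha0 : 0 < a := Nat.pos_of_ne_zero (fun h0 => NeZero.ne (d * a) (by rw [h0, mul_zero]))
  rw [Nat.mul_div_cancel_left _ (Nat.mul_pos hd0 ha0), Nat.mul_div_cancel_left _ hd0,
    mul_assoc, Nat.mul_div_cancel_left _ hd0, mul_comm]

/-- **(hF)**: the Fricke expansion at level `M` of an element of `Fbar N` is a series in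
`q^(M/N)`. -/
theorem tauS_inclusion_mem_range [NeZero (M / N)] (f : FF N) :
    tauS M (IntermediateField.inclusion (fbar_mono h) f) ∈ Set.range (qExpand Kbar (M / N)) := by
  have htop : IntermediateField.adjoin Kbar (genSet N) ≤
      (rangeField M (M / N)).comap (IntermediateField.inclusion (fbar_mono h)) := by
    rw [IntermediateField.adjoin_le_iff]
    rintro _ ⟨d, hne, hd, rfl⟩
    have := hne
    rw [SetLike.mem_coe, mem_comap_iff, inclusion_jdF h d hd]
    exact jdF_mem_rangeField h d hd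
  have hf := htop (FracR.mem_adjoin_genSet N f)
  rw [mem_comap_iff] at hf
  exact mem_rangeField.mp hf

/-- **(x₀)**: the Fricke expansion of `x_M = j(q^M)` at level `M` is `j(q)`, of order `-1`. -/
theorem tauS_jdF_self (M : ℕ) [NeZero M] : tauS M (jdF M M dvd_rfl) = jqK := by
  have : NeZero (M / M) := neZero_div dvd_rfl
  have h1 : tauS M (jdF M M dvd_rfl) = qExpand Kbar (M / M) jqK :=
    T_S_jdF M (realizeData M) (cuspData M) M dvd_rfl
  rw [h1, qExpand_congr (Nat.div_self (Nat.pos_of_ne_zero (NeZero.ne M))), qExpand_one_apply]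

theorem order_tauS_jdF_self (M : ℕ) [NeZero M] : (tauS M (jdF M M dvd_rfl)).order = -1 := by
  rw [tauS_jdF_self]
  have := order_qExpand_jqK 1
  rwa [qExpand_one_apply, Nat.cast_one] at this

theorem isCoprime_order_tauS_jdF_self (M : ℕ) [NeZero M] (e : ℕ) :
    IsCoprime (tauS M (jdF M M dvd_rfl)).order (e : ℤ) := by
  rw [order_tauS_jdF_self]
  exact isCoprime_one_left.neg_left

/-- **(hnt)**: `j ∈ Fbar N` has a nonconstant Fricke expansion at level `M`. -/
theorem exists_order_tauS_ne_zero :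
    ∃ f : FF N, f ≠ 0 ∧ (tauS M (IntermediateField.inclusion (fbar_mono h) f)).order ≠ 0 := by
  have : NeZero (M / 1) := neZero_div (one_dvd M)
  have h0 : IntermediateField.inclusion (fbar_mono h) (jF N) = jdF M 1 (one_dvd M) :=
    inclusion_jdF h 1 (one_dvd N)
  have h1 : tauS M (jdF M 1 (one_dvd M)) = qExpand Kbar (M / 1) jqK :=
    T_S_jdF M (realizeData M) (cuspData M) 1 (one_dvd M)
  have hord : (tauS M (IntermediateField.inclusion (fbar_mono h) (jF N))).order ≠ 0 := by
    rw [h0, h1, order_qExpand_jqK, Nat.div_one]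
    have : (M : ℤ) ≠ 0 := by exact_mod_cast NeZero.ne M
    omega
  refine ⟨jF N, fun hf0 => hord ?_, hord⟩
  rw [hf0, map_zero, map_zero, HahnSeries.order_zero]

end Tower

end Fermat.Agent.RED.LVL.FrickeExp17
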