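/-
Program H (S18), chapter LVL, helper10: the DEGREE part (L4) of the level step.

* generic: `inclAlgebra h : Algebra A B` for intermediate fields `A ≤ B`, `finrank_inclAlgebra`
  (`= relfinrank A B`), `finiteDimensional_inclAlgebra`;
* numerics: `lcm_sq_cases`, `dedekindPsi_lcm_sq_lt`, `dedekindPsi_auxLevel_lt` :
  `ψ(auxLevel ℓ N) < 2 · (auxLevel ℓ N / N) · ψ(N)`  (the cases `1 < 2`, `p < 2p`, `p(p+1) < 2p²`);
* fields: `fbar_le : N ∣ M → Fbar N ≤ Fbar M`, `relfinrank_fbar_mul : ψ(N) · [Fbar M : Fbar N] = ψ(M)`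
  (via `DegBaseChange25.relfinrank_laurentBaseChange_eq_psi` at both levels and the tower law),
  `relfinrank_fbar_pos`, `isAlgebraic_fbar` (the `halg` of `LevelStepAbs2.levelStep_of_rootDescent`),
  `relfinrank_fbar_auxLevel_lt`;
* `exists_inclusion_eq_of_pow_eq` : helper17's `ValueGroupDescent17.exists_algebraMap_eq_of_pow_eq`
  restated for intermediate fields `A ≤ B` with `relfinrank` (no algebra instance in the statement;
  typeclass search at the concrete types `↥(Fbar N)` is too slow to state it there).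
-/
import Mathlib
import Fermat.Agent.IG.PR.Counting20
import Fermat.Agent.RED.Interface4
import Fermat.Agent.RED.PUR.DegBaseChange25
import Fermat.Agent.RED.LVL.ValueGroupDescent17

set_option autoImplicit false
set_option linter.style.haveILetI false

noncomputable section

open HahnSeries AlgebraicCurve ModularCurve IntermediateField

namespace Fermat.Agent.RED.LVL.LevelDegree10

open Fermat.Agent.RED.Interface4 Fermat.Agent.RED.PUR.DegBaseChange25
open Fermat.Agent.IG.PR.Counting20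

section Generic

variable {K E : Type*} [Field K] [Field E] [Algebra K E] {A B : IntermediateField K E}

/-- The `A`-algebra structure on `B` given by the inclusion `A ≤ B`. -/
abbrev inclAlgebra (h : A ≤ B) : Algebra A B := (IntermediateField.inclusion h).toRingHom.toAlgebra

/-- `B` with the inclusion algebra structure is `A`-linearly equivalent to `extendScalars h`. -/
def inclEquiv (h : A ≤ B) :
    letI := inclAlgebra h
    B ≃ₗ[A] (extendScalars h) :=
  letI := inclAlgebra h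
  { toFun := fun x => ⟨x.1, x.2⟩
    invFun := fun x => ⟨x.1, x.2⟩
    left_inv := fun _ => rfl
    right_inv := fun _ => rfl
    map_add' := fun _ _ => rfl
    map_smul' := fun c x => by
      apply Subtype.ext
      show ((c • x : B) : E) = _
      rw [Algebra.smul_def]
      rfl }

theorem finrank_inclAlgebra (h : A ≤ B) :
    letI := inclAlgebra h
    Module.finrank A B = relfinrank A B := by
  letI := inclAlgebra h
  rw [relfinrank_eq_finrank_of_le h]
  exact LinearEquiv.finrank_eq (inclEquiv h)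

theorem finiteDimensional_inclAlgebra (h : A ≤ B) (hpos : 0 < relfinrank A B) :
    letI := inclAlgebra h
    FiniteDimensional A B := by
  letI := inclAlgebra h
  apply Module.finite_of_finrank_pos
  rw [finrank_inclAlgebra h]
  exact hpos

theorem isAlgebraic_of_relfinrank_pos (h : A ≤ B) (hpos : 0 < relfinrank A B) (x : B) :
    IsAlgebraic A (x : E) := by
  have hfd : FiniteDimensional A (extendScalars h) := by
    apply Module.finite_of_finrank_pos
    rw [← relfinrank_eq_finrank_of_le h]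
    exact hpos
  have h1 : IsAlgebraic A (⟨x.1, x.2⟩ : extendScalars h) :=
    Algebra.IsAlgebraic.isAlgebraic _
  exact h1.algHom (extendScalars h).val

/-- `ValueGroupDescent17.exists_algebraMap_eq_of_pow_eq` for intermediate fields `A ≤ B`, the
algebra structure hidden. -/
theorem exists_inclusion_eq_of_pow_eq {k : Type*} [Field k] (e : ℕ) [NeZero e] (h : A ≤ B)
    (hpos : 0 < relfinrank A B) (hdeg : relfinrank A B < 2 * e)
    (ι : B →+* LaurentSeries k) {m : ℕ} (hm : (m : k) ≠ 0)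
    (hF : ∀ f : A, ι (IntermediateField.inclusion h f) ∈ Set.range (qExpand k e))
    (x₀ : B) (hx₀ : IsCoprime (ι x₀).order (e : ℤ))
    (s : B) (g : A) (hs : s ^ m = IntermediateField.inclusion h g)
    (hord : ((e : ℤ) * (m : ℤ)) ∣ (ι (IntermediateField.inclusion h g)).order) :
    ∃ f : A, IntermediateField.inclusion h f = s := by
  letI := inclAlgebra h
  haveI := finiteDimensional_inclAlgebra h hpos
  have hdeg' : Module.finrank A B < 2 * e := by rw [finrank_inclAlgebra h]; exact hdeg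
  exact Fermat.Agent.RED.LVL.ValueGroupDescent17.exists_algebraMap_eq_of_pow_eq e ι hm hF x₀ hx₀
    hdeg' s g hs hord

end Generic


/-! ### Numerics -/

theorem dedekindPsi_pos {N : ℕ} (hN : 0 < N) : 0 < dedekindPsi N := by
  unfold dedekindPsi
  apply Finset.sum_pos'
  · intro d _; exact Nat.zero_le _
  · refine ⟨1, ?_, ?_⟩
    · rw [Finset.mem_filter]
      exact ⟨Nat.one_mem_divisors.mpr hN.ne', squarefree_one⟩
    · rw [Nat.div_one]; exact hN

/-- The three cases of `lcm N p²`. -/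
theorem lcm_sq_cases {p N : ℕ} (hp : p.Prime) (hN : 0 < N) :
    (Nat.lcm N (p ^ 2) = N ∧ dedekindPsi (Nat.lcm N (p ^ 2)) = dedekindPsi N) ∨
    (Nat.lcm N (p ^ 2) = p * N ∧ dedekindPsi (Nat.lcm N (p ^ 2)) = p * dedekindPsi N) ∨
    (Nat.lcm N (p ^ 2) = p ^ 2 * N ∧
      dedekindPsi (Nat.lcm N (p ^ 2)) = p * (p + 1) * dedekindPsi N) := by
  by_cases h2 : p ^ 2 ∣ N
  · left
    have : Nat.lcm N (p ^ 2) = N := Nat.lcm_eq_left h2
    exact ⟨this, by rw [this]⟩
  by_cases h1 : p ∣ N
  · right; left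
    have hl : Nat.lcm N (p ^ 2) = p * N := by
      apply Nat.dvd_antisymm
      · apply Nat.lcm_dvd (Dvd.intro_left p rfl)
        rw [pow_two]; exact Nat.mul_dvd_mul_left p h1
      · obtain ⟨N', rfl⟩ := h1
        have hpN' : ¬ p ∣ N' := by
          intro h; apply h2; rw [pow_two]; exact Nat.mul_dvd_mul_left p h
        obtain ⟨c, hc⟩ := Nat.dvd_lcm_left (p * N') (p ^ 2)
        have hp2 : p ^ 2 ∣ p * N' * c := hc ▸ Nat.dvd_lcm_right (p * N') (p ^ 2)
        have : p ∣ N' * c := by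
          rw [pow_two, mul_assoc] at hp2
          exact Nat.dvd_of_mul_dvd_mul_left hp.pos hp2
        have hpc : p ∣ c := (hp.dvd_mul.mp this).resolve_left hpN'
        rw [hc]
        obtain ⟨c', rfl⟩ := hpc
        exact ⟨c', by ring⟩
    exact ⟨hl, by rw [hl, psi_prime_mul_of_dvd hp hN.ne' h1]⟩
  · right; right
    have hcop : Nat.Coprime N (p ^ 2) :=
      Nat.Coprime.pow_right 2 ((Nat.Prime.coprime_iff_not_dvd hp).mpr h1).symm
    have hl : Nat.lcm N (p ^ 2) = p ^ 2 * N := by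
      rw [hcop.lcm_eq_mul, mul_comm]
    refine ⟨hl, ?_⟩
    have hpN : p ∣ p * N := Dvd.intro _ rfl
    have hpN0 : p * N ≠ 0 := Nat.mul_ne_zero hp.ne_zero hN.ne'
    rw [hl, pow_two, mul_assoc, psi_prime_mul_of_dvd hp hpN0 hpN, psi_prime_mul_of_not_dvd hp h1]
    ring

/-- numerics of the level step: `ψ(lcm N p²) < 2 · (lcm N p² / N) · ψ(N)`. -/
theorem dedekindPsi_lcm_sq_lt {p N : ℕ} (hp : p.Prime) (hN : 0 < N) :
    dedekindPsi (Nat.lcm N (p ^ 2)) < 2 * (Nat.lcm N (p ^ 2) / N) * dedekindPsi N := by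
  have hψ := dedekindPsi_pos hN
  have hp2 := hp.two_le
  rcases lcm_sq_cases hp hN with ⟨h1, h2⟩ | ⟨h1, h2⟩ | ⟨h1, h2⟩
  · rw [h2, h1, Nat.div_self hN]; omega
  · rw [h2, h1, Nat.mul_div_cancel _ hN]
    nlinarith
  · rw [h2, h1, Nat.mul_div_cancel _ hN]
    have : p * (p + 1) < 2 * p ^ 2 := by nlinarith
    exact Nat.mul_lt_mul_of_pos_right this hψ

theorem dedekindPsi_auxLevel_lt (ℓ : ℕ) {N : ℕ} (hN : 0 < N) :
    dedekindPsi (auxLevel ℓ N) < 2 * (auxLevel ℓ N / N) * dedekindPsi N := by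
  unfold auxLevel
  split_ifs
  · exact dedekindPsi_lcm_sq_lt (p := 3) Nat.prime_three hN
  · exact dedekindPsi_lcm_sq_lt (p := 2) Nat.prime_two hN


/-! ### The fields -/

/-- `ℚ̄·F_N = ℚ̄(j(q^d) : d ∣ N)`. -/
theorem fbar_eq_fullC (N : ℕ) : Fbar N = modularFunctionFieldFullC Qbar N :=
  laurentBaseChange_full_eq Qbar N

theorem divisorExpansionsC_mono {N M : ℕ} (h : N ∣ M) :
    divisorExpansionsC Qbar N ⊆ divisorExpansionsC Qbar M := by
  rintro _ ⟨d, hne, hd, rfl⟩
  exact ⟨d, hne, hd.trans h, rfl⟩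

/-- `ℚ̄·F_N ⊂ ℚ̄·F_M` for `N ∣ M`. -/
theorem fbar_le {N M : ℕ} (h : N ∣ M) : Fbar N ≤ Fbar M := by
  rw [fbar_eq_fullC, fbar_eq_fullC]
  exact IntermediateField.adjoin.mono Qbar _ _ (divisorExpansionsC_mono h)

theorem jq_mem_fbar (N : ℕ) : jqModC Qbar ∈ Fbar N := jqModC_mem_laurentBaseChange Qbar N

theorem adjoin_jq_le_fbar (N : ℕ) : Qbar⟮jqModC Qbar⟯ ≤ Fbar N := by
  rw [IntermediateField.adjoin_le_iff]
  rintro _ (rfl : _ = jqModC Qbar)
  exact jq_mem_fbar N

theorem relfinrank_jq_fbar (N : ℕ) [NeZero N] :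
    relfinrank Qbar⟮jqModC Qbar⟯ (Fbar N) = dedekindPsi N :=
  relfinrank_laurentBaseChange_eq_psi Qbar N

/-- **(L4)** `[ℚ̄·F_M : ℚ̄·F_N] · ψ(N) = ψ(M)` for `N ∣ M`. -/
theorem relfinrank_fbar_mul {N M : ℕ} [NeZero N] [NeZero M] (h : N ∣ M) :
    dedekindPsi N * relfinrank (Fbar N) (Fbar M) = dedekindPsi M := by
  rw [← relfinrank_jq_fbar N, ← relfinrank_jq_fbar M]
  exact relfinrank_mul_relfinrank (adjoin_jq_le_fbar N) (fbar_le h)


theorem relfinrank_fbar_pos {N M : ℕ} [NeZero N] [NeZero M] (h : N ∣ M) :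
    0 < relfinrank (Fbar N) (Fbar M) := by
  have h1 := relfinrank_fbar_mul h
  have h2 := dedekindPsi_pos (Nat.pos_of_ne_zero (NeZero.ne M))
  rcases Nat.eq_zero_or_pos (relfinrank (Fbar N) (Fbar M)) with h0 | h0
  · rw [h0, mul_zero] at h1; omega
  · exact h0

/-- `Fbar M` is algebraic over `Fbar N` (`N ∣ M`): the `halg` of
`LevelStepAbs2.levelStep_of_rootDescent`. -/
theorem isAlgebraic_fbar {N M : ℕ} [NeZero N] [NeZero M] (h : N ∣ M) (x : Fbar M) :
    IsAlgebraic (Fbar N) (x : LaurentSeries Qbar) :=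
  isAlgebraic_of_relfinrank_pos (fbar_le h) (relfinrank_fbar_pos h) x

theorem relfinrank_fbar_auxLevel_lt (ℓ N : ℕ) [NeZero N] [NeZero (auxLevel ℓ N)] :
    relfinrank (Fbar N) (Fbar (auxLevel ℓ N)) < 2 * (auxLevel ℓ N / N) := by
  have hN : 0 < N := Nat.pos_of_ne_zero (NeZero.ne N)
  have h1 := relfinrank_fbar_mul (dvd_auxLevel ℓ N)
  have h2 := dedekindPsi_auxLevel_lt ℓ hN
  have h3 := dedekindPsi_pos hN
  rw [← h1, mul_comm (2 * (auxLevel ℓ N / N))] at h2
  exact Nat.lt_of_mul_lt_mul_left h2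

end Fermat.Agent.RED.LVL.LevelDegree10
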