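/-
Program H (S18) / chapter RED/LVL / helper19.

`LevelDegree19` (L4): degrees in the level tower `Fbar N ≤ Fbar M` (`N ∣ M`) and the numerics
for the auxiliary level `M = auxLevel ℓ N = lcm N 4` resp. `lcm N 9`.

* `relfinrank_fbar_mul`     : `[Fbar M : Fbar N] · ψ(N) = ψ(M)`;
* `psi_lcm_sq_lt`, `psi_auxLevel_lt` : `ψ(M) < 2 · (M / N) · ψ(N)` for `M = lcm N p²`;
* `relfinrank_auxLevel_lt`  : `[Fbar M : Fbar N] < 2 · (M / N)`;
* `eq_of_le_relfinrank`     : an intermediate field `Fbar N ≤ L ≤ Fbar M` with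
  `e ≤ [Fbar M : L]` and `[Fbar M : Fbar N] < 2 e` is `Fbar N`.
-/
import Mathlib
import Fermat.Agent.RED.Interface4
import Fermat.Agent.RED.BASE.TGen19
import Fermat.Agent.X0.GNPsi

set_option autoImplicit false

open ModularCurve IntermediateField

noncomputable section

namespace Fermat.Agent.RED.LVL.LevelDegree19

open Fermat.Agent.RED.Interface4 Fermat.Agent.X0.GNPsi

/-! ### numerics -/

theorem psi_prime {p : ℕ} (hp : p.Prime) : dedekindPsi p = p + 1 := by
  have := gnp_dedekindPsi_prime_pow hp 0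
  simpa using this

theorem psi_prime_sq {p : ℕ} (hp : p.Prime) : dedekindPsi (p ^ 2) = p ^ 2 + p := by
  have := gnp_dedekindPsi_prime_pow hp 1
  simpa using this

/-- `ψ(lcm N p²) < 2 · (lcm N p² / N) · ψ(N)`. -/
theorem psi_lcm_sq_lt {p : ℕ} (hp : p.Prime) {N : ℕ} (hN : N ≠ 0) :
    dedekindPsi (Nat.lcm N (p ^ 2)) < 2 * (Nat.lcm N (p ^ 2) / N) * dedekindPsi N := by
  have hψN : 0 < dedekindPsi N := gnp_dedekindPsi_pos hN
  by_cases h2 : p ^ 2 ∣ N
  · rw [Nat.lcm_eq_left h2, Nat.div_self (Nat.pos_of_ne_zero hN)]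
    omega
  by_cases h1 : p ∣ N
  · obtain ⟨N', rfl⟩ := h1
    have hN' : N' ≠ 0 := by rintro rfl; simp at hN
    have hpN' : ¬ p ∣ N' := by
      intro h
      apply h2
      rw [pow_two]
      exact Nat.mul_dvd_mul_left p h
    have hcop : Nat.Coprime p N' := (Nat.Prime.coprime_iff_not_dvd hp).2 hpN'
    have hlcm : Nat.lcm (p * N') (p ^ 2) = p ^ 2 * N' := by
      rw [pow_two, Nat.lcm_mul_left, Nat.lcm_comm, hcop.lcm_eq_mul]
      ring
    have hdiv : p ^ 2 * N' / (p * N') = p := by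
      rw [pow_two, mul_assoc]
      exact Nat.mul_div_cancel _ (Nat.mul_pos hp.pos (Nat.pos_of_ne_zero hN'))
    rw [hlcm, hdiv, gnp_dedekindPsi_mul (Nat.Coprime.pow_left 2 hcop), gnp_dedekindPsi_mul hcop,
      psi_prime_sq hp, psi_prime hp]
    have hψN' : 0 < dedekindPsi N' := gnp_dedekindPsi_pos hN'
    have hp0 : 0 < p := hp.pos
    have : 0 < p * (p + 1) * dedekindPsi N' := by positivity
    nlinarith
  · have hcop : Nat.Coprime N (p ^ 2) :=
      (Nat.Coprime.pow_left 2 ((Nat.Prime.coprime_iff_not_dvd hp).2 h1)).symm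
    have hdiv : N * p ^ 2 / N = p ^ 2 := Nat.mul_div_cancel_left _ (Nat.pos_of_ne_zero hN)
    rw [hcop.lcm_eq_mul, hdiv, gnp_dedekindPsi_mul hcop, psi_prime_sq hp]
    have hp1 : 1 < p := hp.one_lt
    have : p < p ^ 2 := by nlinarith
    nlinarith

/-- `ψ(auxLevel ℓ N) < 2 · (auxLevel ℓ N / N) · ψ(N)`. -/
theorem psi_auxLevel_lt (ℓ : ℕ) {N : ℕ} (hN : N ≠ 0) :
    dedekindPsi (auxLevel ℓ N) < 2 * (auxLevel ℓ N / N) * dedekindPsi N := by
  unfold auxLevel
  split_ifs
  · exact psi_lcm_sq_lt (p := 3) Nat.prime_three hN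
  · exact psi_lcm_sq_lt (p := 2) Nat.prime_two hN

/-! ### the tower formula -/

/-- `[Fbar M : Fbar N] · ψ(N) = ψ(M)` for `N ∣ M`. -/
theorem relfinrank_fbar_mul {N M : ℕ} [NeZero N] [NeZero M] (h : N ∣ M) :
    (Fbar N).relfinrank (Fbar M) * dedekindPsi N = dedekindPsi M := by
  have h1 := IntermediateField.relfinrank_mul_relfinrank
    (Fermat.Agent.RED.BASE.QExpMem19.K0_le N) (Fermat.Agent.RED.BASE.Interface12.fbar_mono h)
  rw [Fermat.Agent.RED.BASE.TGen19.relfinrank_K0 N,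
    Fermat.Agent.RED.BASE.TGen19.relfinrank_K0 M] at h1
  rw [mul_comm]
  exact h1

theorem relfinrank_fbar_pos {N M : ℕ} [NeZero N] [NeZero M] (h : N ∣ M) :
    0 < (Fbar N).relfinrank (Fbar M) := by
  rcases Nat.eq_zero_or_pos ((Fbar N).relfinrank (Fbar M)) with h0 | h0
  · have := relfinrank_fbar_mul h
    rw [h0, zero_mul] at this
    exact absurd this.symm (gnp_dedekindPsi_pos (NeZero.ne M)).ne'
  · exact h0

/-- `[Fbar M : Fbar N] < 2 · (M / N)` for `M = auxLevel ℓ N`. -/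
theorem relfinrank_auxLevel_lt (ℓ N : ℕ) [NeZero N] [NeZero (auxLevel ℓ N)] :
    (Fbar N).relfinrank (Fbar (auxLevel ℓ N)) < 2 * (auxLevel ℓ N / N) := by
  have h1 := relfinrank_fbar_mul (dvd_auxLevel ℓ N)
  have h2 := psi_auxLevel_lt ℓ (NeZero.ne N)
  rw [← h1] at h2
  exact lt_of_mul_lt_mul_right h2 (Nat.zero_le _)

/-- An intermediate field `Fbar N ≤ L ≤ Fbar M` with `e ≤ [Fbar M : L]`, when
`[Fbar M : Fbar N] < 2 e`, equals `Fbar N`. -/
theorem eq_of_le_relfinrank {N M e : ℕ} [NeZero N] [NeZero M] (h : N ∣ M)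
    (hlt : (Fbar N).relfinrank (Fbar M) < 2 * e)
    (L : IntermediateField Qbar (LaurentSeries Qbar)) (hNL : Fbar N ≤ L) (hLM : L ≤ Fbar M)
    (he : e ≤ L.relfinrank (Fbar M)) : L = Fbar N := by
  have hmul := IntermediateField.relfinrank_mul_relfinrank hNL hLM
  have hpos := relfinrank_fbar_pos h
  have h1 : (Fbar N).relfinrank L = 1 := by
    rcases Nat.lt_or_ge ((Fbar N).relfinrank L) 2 with h2 | h2
    · rcases Nat.eq_zero_or_pos ((Fbar N).relfinrank L) with h0 | h0
      · rw [h0, zero_mul] at hmul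
        omega
      · omega
    · exfalso
      have : 2 * e ≤ (Fbar N).relfinrank L * L.relfinrank (Fbar M) := Nat.mul_le_mul h2 he
      omega
  exact le_antisymm (IntermediateField.relfinrank_eq_one_iff.1 h1) hNL

/-- Finite-dimensionality of an intermediate step `L ≤ Fbar M` of the tower `Fbar N ≤ Fbar M`. -/
theorem finiteDimensional_extendScalars {N M : ℕ} [NeZero N] [NeZero M] (h : N ∣ M)
    (L : IntermediateField Qbar (LaurentSeries Qbar)) (hNL : Fbar N ≤ L) (hLM : L ≤ Fbar M) :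
    FiniteDimensional L (extendScalars hLM) := by
  have hmul := IntermediateField.relfinrank_mul_relfinrank hNL hLM
  have hpos := relfinrank_fbar_pos h
  have h0 : 0 < L.relfinrank (Fbar M) := by
    rcases Nat.eq_zero_or_pos (L.relfinrank (Fbar M)) with h0 | h0
    · rw [h0, mul_zero] at hmul
      omega
    · exact h0
  rw [IntermediateField.relfinrank_eq_finrank_of_le hLM] at h0
  exact FiniteDimensional.of_finrank_pos h0

/-- `Fbar M` is finite over `Fbar N`. -/
theorem finiteDimensional_fbar {N M : ℕ} [NeZero N] [NeZero M] (h : N ∣ M) :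
    FiniteDimensional (Fbar N)
      (extendScalars (Fermat.Agent.RED.BASE.Interface12.fbar_mono h)) :=
  finiteDimensional_extendScalars h (Fbar N) le_rfl _

/-- `[Fbar M : Fbar N] · ψ(N) = ψ(M)`, `finrank` form. -/
theorem finrank_extendScalars_mul {N M : ℕ} [NeZero N] [NeZero M] (h : N ∣ M) :
    Module.finrank (Fbar N) (extendScalars (Fermat.Agent.RED.BASE.Interface12.fbar_mono h)) *
      dedekindPsi N = dedekindPsi M := by
  rw [← IntermediateField.relfinrank_eq_finrank_of_le]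
  exact relfinrank_fbar_mul h

/-- The degree of the minimal polynomial over `L` of an element of `Fbar M` is at most
`[Fbar M : L]`. -/
theorem natDegree_minpoly_le_relfinrank {N M : ℕ} [NeZero N] [NeZero M] (h : N ∣ M)
    (L : IntermediateField Qbar (LaurentSeries Qbar)) (hNL : Fbar N ≤ L) (hLM : L ≤ Fbar M)
    (x : LaurentSeries Qbar) (hx : x ∈ Fbar M) :
    (minpoly L x).natDegree ≤ L.relfinrank (Fbar M) := by
  have hfd := finiteDimensional_extendScalars h L hNL hLM
  rw [IntermediateField.relfinrank_eq_finrank_of_le hLM]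
  have hx' : x ∈ extendScalars hLM := hx
  have hfree : Module.Free L (extendScalars hLM) := Module.Free.of_divisionRing L _
  have := minpoly.natDegree_le (A := L) (⟨x, hx'⟩ : extendScalars hLM)
  rwa [IntermediateField.minpoly_eq] at this

/-- Variant of `eq_of_le_relfinrank` with the lower bound given on the degree of a minimal
polynomial: if some `x ∈ Fbar M` has `e ≤ deg minpoly_L x` and `[Fbar M : Fbar N] < 2 e`, then
`L = Fbar N`. -/
theorem eq_of_le_natDegree_minpoly {N M e : ℕ} [NeZero N] [NeZero M] (h : N ∣ M)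
    (hlt : (Fbar N).relfinrank (Fbar M) < 2 * e)
    (L : IntermediateField Qbar (LaurentSeries Qbar)) (hNL : Fbar N ≤ L) (hLM : L ≤ Fbar M)
    (x : LaurentSeries Qbar) (hx : x ∈ Fbar M) (he : e ≤ (minpoly L x).natDegree) :
    L = Fbar N :=
  eq_of_le_relfinrank h hlt L hNL hLM
    (he.trans (natDegree_minpoly_le_relfinrank h L hNL hLM x hx))

/-- The form used in the level step: `s ∈ Fbar M`, `L := Fbar N ⊔ ℚbar(s)`; if some `x ∈ Fbar M`
has `e ≤ deg minpoly_L x` and `[Fbar M : Fbar N] < 2 e` then `s ∈ Fbar N`. -/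
theorem mem_of_le_natDegree_minpoly {N M e : ℕ} [NeZero N] [NeZero M] (h : N ∣ M)
    (hlt : (Fbar N).relfinrank (Fbar M) < 2 * e)
    (s : LaurentSeries Qbar) (hs : s ∈ Fbar M)
    (x : LaurentSeries Qbar) (hx : x ∈ Fbar M)
    (he : e ≤ (minpoly (Fbar N ⊔ Qbar⟮s⟯ : IntermediateField Qbar (LaurentSeries Qbar))
      x).natDegree) : s ∈ Fbar N := by
  have hLM : (Fbar N ⊔ Qbar⟮s⟯ : IntermediateField Qbar (LaurentSeries Qbar)) ≤ Fbar M :=
    sup_le (Fermat.Agent.RED.BASE.Interface12.fbar_mono h)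
      (by rw [adjoin_simple_le_iff]; exact hs)
  have := eq_of_le_natDegree_minpoly h hlt _ le_sup_left hLM x hx he
  rw [← this]
  exact (le_sup_right : Qbar⟮s⟯ ≤ _) (mem_adjoin_simple_self Qbar s)

end Fermat.Agent.RED.LVL.LevelDegree19
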