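import Mathlib
import Fermat.Agent.RED.Interface4
import Fermat.Agent.RED.BASE.TGen19
import Fermat.Agent.X0.GNPsi

/-!
# Program H, chapter LVL: (L4) degrees and numerics

* `psi_auxLevel_lt` : `psi (auxLevel l N) < 2 * (auxLevel l N / N) * psi N`;
* `psi_mul_relfinrank` : `psi N * [Fbar_M : Fbar_N] = psi M` for `N | M` (tower law over `Qbar(j)`);
* `relfinrank_auxLevel_lt` : `[Fbar_M : Fbar_N] < 2 * (M / N)` for `M = auxLevel l N`.
-/

set_option autoImplicit false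

open ModularCurve IntermediateField

namespace Fermat.Agent.RED.LVL.LevelDegree5

open Fermat.Agent.X0 Fermat.Agent.X0.GNPsi Fermat.Agent.RED.Interface4

/-! ### numerics -/

/-- `ψ(p^a m) = ψ(p^a) ψ(m)` for `p ∤ m`. -/
theorem psi_pow_mul {p : ℕ} (hp : p.Prime) (a m : ℕ) (hm : ¬ p ∣ m) :
    dedekindPsi (p ^ a * m) = dedekindPsi (p ^ a) * dedekindPsi m :=
  gnp_dedekindPsi_mul (Nat.Coprime.pow_left a ((Nat.Prime.coprime_iff_not_dvd hp).mpr hm))

/-- For a prime `p` and `N ≥ 1`, with `M = lcm(N, p²)`: `ψ(M) < 2 (M / N) ψ(N)`. -/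
theorem psi_lcm_sq_lt {p : ℕ} (hp : p.Prime) {N : ℕ} (hN : N ≠ 0) :
    dedekindPsi (Nat.lcm N (p ^ 2)) < 2 * (Nat.lcm N (p ^ 2) / N) * dedekindPsi N := by
  obtain ⟨a, m, hm, rfl⟩ := Nat.exists_eq_pow_mul_and_not_dvd hN p hp.ne_one
  have hm0 : m ≠ 0 := fun h => hN (by rw [h, mul_zero])
  have hψm : 0 < dedekindPsi m := gnp_dedekindPsi_pos hm0
  have hp2 : 2 ≤ p := hp.two_le
  have hcop : ∀ k, Nat.Coprime (p ^ k) m := fun k =>
    Nat.Coprime.pow_left k ((Nat.Prime.coprime_iff_not_dvd hp).mpr hm)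
  have hpa0 : p ^ a * m ≠ 0 := hN
  rcases Nat.lt_or_ge a 2 with ha | ha
  · -- `lcm = p² m`
    have hlcm : Nat.lcm (p ^ a * m) (p ^ 2) = p ^ 2 * m := by
      have h1 : p ^ 2 = p ^ a * p ^ (2 - a) := by rw [← pow_add]; congr 1; omega
      rw [h1, Nat.lcm_mul_left, mul_assoc]
      congr 1
      rw [Nat.Coprime.lcm_eq_mul ((hcop (2 - a)).symm), mul_comm]
    have hdiv : p ^ 2 * m / (p ^ a * m) = p ^ (2 - a) := by
      have h1 : p ^ 2 * m = p ^ (2 - a) * (p ^ a * m) := by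
        rw [← mul_assoc, ← pow_add]; congr 2; omega
      rw [h1, Nat.mul_div_cancel _ (Nat.pos_of_ne_zero hpa0)]
    rw [hlcm, hdiv, psi_pow_mul hp 2 m hm, psi_pow_mul hp a m hm,
      gnp_dedekindPsi_prime_pow hp 1]
    interval_cases a
    · -- `a = 0`
      rw [pow_zero, dedekindPsi_one]
      have : p ^ (1 + 1) + p ^ 1 < 2 * p ^ (2 - 0) * 1 := by
        have : p < p ^ 2 := by nlinarith
        simp only [Nat.sub_zero, pow_one, mul_one]
        show p ^ 2 + p < 2 * p ^ 2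
        omega
      calc (p ^ (1 + 1) + p ^ 1) * dedekindPsi m < 2 * p ^ (2 - 0) * 1 * dedekindPsi m :=
            Nat.mul_lt_mul_of_pos_right this hψm
        _ = _ := by ring
    · -- `a = 1`
      rw [show p ^ 1 = p ^ (0 + 1) from rfl, gnp_dedekindPsi_prime_pow hp 0]
      have : p ^ (1 + 1) + p ^ (0 + 1) < 2 * p ^ (2 - 1) * (p ^ (0 + 1) + p ^ 0) := by
        simp only [pow_one, pow_zero, zero_add, Nat.reduceSub, Nat.reduceAdd]
        nlinarith
      calc (p ^ (1 + 1) + p ^ (0 + 1)) * dedekindPsi m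
          < 2 * p ^ (2 - 1) * (p ^ (0 + 1) + p ^ 0) * dedekindPsi m :=
            Nat.mul_lt_mul_of_pos_right this hψm
        _ = _ := by ring
  · -- `p² ∣ N`, `lcm = N`
    have hdvd : p ^ 2 ∣ p ^ a * m := Dvd.dvd.mul_right (pow_dvd_pow p ha) m
    rw [Nat.lcm_eq_left hdvd, Nat.div_self (Nat.pos_of_ne_zero hpa0)]
    have := gnp_dedekindPsi_pos hpa0
    omega

/-- **(L4) numerics**: `ψ(M) < 2 (M / N) ψ(N)` for `M = auxLevel ℓ N`. -/
theorem psi_auxLevel_lt (ℓ : ℕ) {N : ℕ} (hN : N ≠ 0) :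
    dedekindPsi (auxLevel ℓ N) < 2 * (auxLevel ℓ N / N) * dedekindPsi N := by
  unfold auxLevel
  split_ifs
  · exact psi_lcm_sq_lt (p := 3) Nat.prime_three hN
  · exact psi_lcm_sq_lt (p := 2) Nat.prime_two hN

/-! ### degrees -/

/-- **(L4) degree**: `ψ(N) · [Fbar_M : Fbar_N] = ψ(M)` for `N ∣ M`. -/
theorem psi_mul_relfinrank (N M : ℕ) [NeZero N] [NeZero M] (h : N ∣ M) :
    dedekindPsi N * relfinrank (Fbar N) (Fbar M) = dedekindPsi M := by
  rw [← BASE.TGen19.relfinrank_K0 N, ← BASE.TGen19.relfinrank_K0 M]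
  exact relfinrank_mul_relfinrank (BASE.QExpMem19.K0_le N) (BASE.Interface12.fbar_mono h)

theorem relfinrank_pos (N M : ℕ) [NeZero N] [NeZero M] (h : N ∣ M) :
    0 < relfinrank (Fbar N) (Fbar M) := by
  rcases Nat.eq_zero_or_pos (relfinrank (Fbar N) (Fbar M)) with h0 | h0
  · have := psi_mul_relfinrank N M h
    rw [h0, mul_zero] at this
    exact absurd this.symm (gnp_dedekindPsi_pos (NeZero.ne M)).ne'
  · exact h0

/-- **(L4)**: `[Fbar_M : Fbar_N] < 2 (M / N)` for `M = auxLevel ℓ N`. -/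
theorem relfinrank_auxLevel_lt (ℓ N : ℕ) [NeZero N] [NeZero (auxLevel ℓ N)] :
    relfinrank (Fbar N) (Fbar (auxLevel ℓ N)) < 2 * (auxLevel ℓ N / N) := by
  have h1 := psi_mul_relfinrank N (auxLevel ℓ N) (dvd_auxLevel ℓ N)
  have h2 := psi_auxLevel_lt ℓ (NeZero.ne N)
  rw [← h1, mul_comm (2 * (auxLevel ℓ N / N))] at h2
  exact lt_of_mul_lt_mul_left h2 (Nat.zero_le _)

end Fermat.Agent.RED.LVL.LevelDegree5
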